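import Fermat.Agent.TwoAdic.Dihedral.CurveShape

/-!
# The dihedral bound for a deformation of a class C curve

A deformation with the local conditions of an auxiliary set is a representation of the shape of
the curve, so `Rep.card_le` proves `DihedralBound`.
-/

set_option autoImplicit false

noncomputable section

namespace Fermat.Agent.TwoAdic.Dihedral

open Arith (QBar GQ)

variable {W : WeierstrassCurve ℤ} {hW : IsClassC W} {Q : Finset ℕ}

section Datum

variable {A : Type} [CommRing A] [IsLocalRing A] [Finite A] [CharP A 2] {π : A →+* ZMod 2}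
  {r : GQ →* M2 A} {eps : ℕ → A} {alpha : A}

omit [CharP A 2] in
theorem isNilpotent_of_map_eq_zero {x : A} (hx : π x = 0) : IsNilpotent x := by
  have hu : ¬ IsUnit x := fun h => not_isUnit_zero (hx ▸ h.map π)
  have hm := (IsLocalRing.mem_maximalIdeal x).2 hu
  have hA : IsArtinianRing A := inferInstance
  obtain ⟨k, hk⟩ := IsArtinianRing.isNilpotent_jacobson_bot (R := A)
  refine ⟨k, ?_⟩
  rw [IsLocalRing.jacobson_eq_maximalIdeal ⊥ bot_ne_top] at hk
  have := Ideal.pow_mem_pow hm k
  rwa [hk, Ideal.zero_eq_bot, Ideal.mem_bot] at this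

omit [IsLocalRing A] [Finite A] in
theorem sq_eq_of_trace {X : M2 A} {e : A} (hd : X.det = 1) (ht : X.trace = 0)
    (he : (X - e • 1) * (X - e • 1) = 0) : e * e = 1 := by
  have h := congrFun (congrFun he 0) 0
  rw [Matrix.det_fin_two] at hd
  rw [Matrix.trace_fin_two] at ht
  simp [Matrix.mul_apply, Fin.sum_univ_two] at h
  have h2 : (2 : A) = 0 := CharTwo.two_eq_zero
  linear_combination h + hd - X 0 0 * ht + X 0 0 * e * h2

omit [IsLocalRing A] [Finite A] in
theorem sq_eq_one_of_sub_one_sq {X : M2 A} (h : (X - 1) ^ 2 = 0) : X * X = 1 := by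
  have e : (X - 1) ^ 2 = X * X + 1 := by
    rw [CharTwo.sub_eq_add, sq, mul_add, add_mul, mul_one, one_mul]
    calc X * X + X + (X + 1) = X * X + 1 + (X + X) := by abel
      _ = X * X + 1 := by rw [CharTwo.add_self_eq_zero, add_zero]
  rw [e, CharTwo.add_eq_zero] at h
  exact h

/-- The representation of the shape given by a datum. -/
def datumRep {hQ : ∀ q ∈ Q, IsAuxPrime W hW.Δ_ne_zero 1 q}
    (hd : IsDihedralDatum W hW.Δ_ne_zero Q π r eps alpha) {L : IntermediateField ℚ QBar}
    (hL : FiniteDimensional ℚ L) (hL' : ∀ σ : GQ, (∀ x ∈ L, σ x = x) → r σ = 1)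
    (lam : Option ↥Q → Aˣ) (hnone : (lam none : A) = alpha)
    (hsome : ∀ q : ↥Q, (lam (some q) : A) = eps q.1) : Rep (curveShape hW hQ L) A where
  rho := r
  res := π
  nilp _ := isNilpotent_of_map_eq_zero
  res_rho := hd.residual
  lam := lam
  det_rho := hd.det
  trace_sigma i := (hd.bad i.1 i.2.1 i.2.2 _ (plc_spec i.2.1) _ (gen_mem hW i)).1
  triv_inertiaU i g hg h := by
    have hsq : ∀ g ∈ (plc i.1).inertiaSubgroupIn ℚ, r g * r g = 1 := fun g hg =>
      sq_eq_one_of_sub_one_sq (hd.bad i.1 i.2.1 i.2.2 _ (plc_spec i.2.1) g hg).2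
    refine (gen_spec hW i (M2 A) r ⟨L, hL, hL'⟩ hsq g hg).elim id fun e => ?_
    refine absurd ?_ (rhoBar_gen_ne_one hW i)
    rw [← hd.residual, ← e, hd.residual]
    exact h
  comm_decompU i g hg := by
    have hsq : ∀ g ∈ (plc i.1).inertiaSubgroupIn ℚ, r g * r g = 1 := fun g hg =>
      sq_eq_one_of_sub_one_sq (hd.bad i.1 i.2.1 i.2.2 _ (plc_spec i.2.1) g hg).2
    show r g * r (gen hW i) = r (gen hW i) * r g
    rcases gen_spec hW i (M2 A) r ⟨L, hL, hL'⟩ hsq g hg with e | e <;> simp [e]
  trace_frob j := by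
    have hp := auxPrime_prime hQ j
    match j with
    | none =>
      obtain ⟨u, hu, htr, -⟩ := hd.two _ (plc_spec hp) _ (frb_spec hp)
      show (r (frb 2)).trace = _
      rw [Units.inv_eq_of_mul_eq_one_right (u := lam none) (a := u) (by rw [hnone, mul_comm, hu]),
        hnone]
      exact htr
    | some q =>
      obtain ⟨htr, hsq, -⟩ := hd.aux q.1 q.2 _ (plc_spec hp) _ (frb_spec hp)
      have he : (lam (some q) : A) * lam (some q) = 1 := by
        rw [hsome]; exact sq_eq_of_trace (hd.det _) htr hsq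
      show (r (frb q.1)).trace = _
      rw [htr, Units.inv_eq_of_mul_eq_one_right he, CharTwo.add_self_eq_zero]
  inertia_rel j g hg := by
    have hp := auxPrime_prime hQ j
    match j with
    | none =>
      obtain ⟨u, -, -, h⟩ := hd.two _ (plc_spec hp) _ (frb_spec hp)
      show (r g - 1) * (r (frb 2) - (lam none : A) • 1) = 0
      rw [hnone]
      exact (h g hg).2.1
    | some q =>
      obtain ⟨-, -, h⟩ := hd.aux q.1 q.2 _ (plc_spec hp) _ (frb_spec hp)
      show (r g - 1) * (r (frb q.1) - (lam (some q) : A) • 1) = 0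
      rw [hsome]
      exact h g hg
  lam_sq j hj := by
    match j with
    | none => exact absurd rfl hj
    | some q =>
      have hp := (hQ q.1 q.2).prime
      obtain ⟨htr, hsq, -⟩ := hd.aux q.1 q.2 _ (plc_spec hp) _ (frb_spec hp)
      refine Units.ext ?_
      rw [Units.val_mul, hsome, Units.val_one]
      exact sq_eq_of_trace (hd.det _) htr hsq
  triv_Z g hg := by
    rcases hg with h | ⟨l, P, hl, h2, hgood, hlQ, hP, hτ⟩ | ⟨P, hP, hpeu⟩
    · exact hL' g h
    · exact hd.unramified l hl h2 hgood hlQ P hP g hτ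
    · exact hd.peu P hP g hpeu

end Datum

/-- **The dihedral lemma for class C curves.** -/
theorem dihedralBound : DihedralBound := by
  intro W hW Q B hQ hsel hB A _ _ _ π r eps alpha hd
  classical
  have : CharP A 2 := CharTwo.of_one_ne_zero_of_two_eq_zero one_ne_zero hd.two_eq_zero
  obtain ⟨L, hL, hL'⟩ := hd.finiteLevel
  have hU : ∀ j : Option ↥Q, ∃ u : Aˣ,
      (u : A) = (j.elim alpha fun q => eps q.1) := fun j => by
    match j with
    | none =>
      obtain ⟨u, hu, -⟩ := hd.two _ (plc_spec Nat.prime_two) _ (frb_spec Nat.prime_two)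
      exact ⟨⟨alpha, u, by rw [mul_comm]; exact hu, hu⟩, rfl⟩
    | some q =>
      have hp := (hQ q.1 q.2).prime
      obtain ⟨htr, hsq, -⟩ := hd.aux q.1 q.2 _ (plc_spec hp) _ (frb_spec hp)
      have h := sq_eq_of_trace (hd.det _) htr hsq
      exact ⟨⟨eps q.1, eps q.1, h, h⟩, rfl⟩
  choose lam hlam using hU
  let R : Rep (curveShape hW hQ L) A := datumRep hd hL hL' lam (hlam none) fun q => hlam (some q)
  let S : Finset (curveShape hW hQ L).J := (Finset.univ : Finset (Option ↥Q))
  have hmem : ∀ j, j ∈ S := fun j => Finset.mem_univ (α := Option ↥Q) j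
  have hgen : Subring.closure ((Set.range fun g => (R.rho g).trace) ∪
      (fun j => (R.lam j : A)) '' (S : Set _)) = ⊤ := by
    refine top_unique (hd.generated ▸ Subring.closure_mono ?_)
    rintro x ((hx | ⟨q, hq, rfl⟩) | hx)
    · exact Or.inl hx
    · exact Or.inr ⟨some ⟨q, hq⟩, hmem _, hlam _⟩
    · exact Or.inr ⟨none, hmem _, (hlam none).trans (Set.mem_singleton_iff.1 hx).symm⟩
  refine (R.card_le_of_range_le (noSelmer_curveShape hsel hL) S hgen B
    fun H _ _ f h2 hk => card_range_le hB hL H f h2 hk).trans (le_of_eq ?_)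
  show 2 ^ (B * 2 ^ (Finset.univ : Finset (Option ↥Q)).card) = _
  rw [Finset.card_univ, Fintype.card_option, Fintype.card_coe]

end Fermat.Agent.TwoAdic.Dihedral
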