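import Fermat.Agent.TwoAdic.Dihedral.Lemma
import Mathlib.Algebra.BigOperators.Pi
import Mathlib.Algebra.CharP.Lemmas
import Mathlib.Algebra.Group.Subgroup.Finite
import Mathlib.Algebra.Ring.Subring.Basic
import Mathlib.SetTheory.Cardinal.Finite

/-!
# The bound on the ring of a dihedral deformation

If the maximal abelian two-group quotient of the index two subgroup in which the killed elements
die is a quotient of `C`, a ring generated by traces and by the `λ` has at most
`2 ^ (#C * 2 ^ #J)` elements.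
-/

set_option autoImplicit false

namespace Fermat.Agent.TwoAdic.Dihedral

universe u v

variable {G : Type u} [Group G]

/-- The index two subgroup `r ⁻¹ (A₃)`. -/
def Shape.rotations (sh : Shape G) : Subgroup G where
  carrier := {g | sh.par g = true}
  one_mem' := sh.par_one
  mul_mem' {a b} ha hb := by
    change sh.par (a * b) = true
    rw [sh.par_mul, show sh.par a = true from ha, show sh.par b = true from hb]; rfl
  inv_mem' {a} ha := by
    change sh.par a⁻¹ = true
    rw [sh.par_inv]; exact ha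

/-- Conjugates of the elements killed by a dihedral representation of the given shape. -/
def Shape.IsKilled (sh : Shape G) (g : G) : Prop :=
  ∃ x s, g = x * s * x⁻¹ ∧
    (s ∈ sh.Z ∨ (∃ i, s ∈ sh.inertiaU i ∧ sh.r s = 1) ∨ ∃ j, s ∈ sh.inertia j)

/-- Every homomorphism of the rotations to a finite abelian two-group which kills the killed
elements factors through `π`. -/
def Shape.FactorsThrough (sh : Shape G) {C : Type*} [CommGroup C] (π : sh.rotations →* C) : Prop :=
  ∀ (B : Type v) [CommGroup B] [Finite B] (f : sh.rotations →* B),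
    (∀ h, ∃ k, f h ^ 2 ^ k = 1) → (∀ h : sh.rotations, sh.IsKilled h → f h = 1) →
      ∃ f' : C →* B, ∀ h, f' (π h) = f h

variable {sh : Shape G} {A : Type v} [CommRing A] [CharP A 2]

theorem IsC.mul_inverse {X : M2 A} (hX : IsC X) (hd : X.det = 1) :
    X * cMat (X 0 0 + X 0 1) (X 0 1) = 1 := by
  rw [Matrix.det_fin_two, hX.1, hX.2] at hd
  nth_rw 1 [hX.eq_cMat]
  rw [cMat_mul_cMat]
  ext i j
  fin_cases i <;> fin_cases j <;> simp [cMat] <;> grind

theorem det_liftM (X : M2 (ZMod 2)) (h : X.det = 1) : (liftM A X).det = 1 := by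
  rw [liftM, ← RingHom.map_det, h, map_one]

/-- The principal units of determinant one in the commutant of `w₀`. -/
def principal (res : A →+* ZMod 2) : Subgroup (M2 A)ˣ where
  carrier := {x | IsC (x : M2 A) ∧ res.mapMatrix (x : M2 A) = 1 ∧ (x : M2 A).det = 1}
  one_mem' := ⟨isC_one, map_one _, Matrix.det_one⟩
  mul_mem' {a b} ha hb := by
    refine ⟨ha.1.mul hb.1, ?_, ?_⟩
    · rw [Units.val_mul, map_mul, ha.2.1, hb.2.1, one_mul]
    · rw [Units.val_mul, Matrix.det_mul, ha.2.2, hb.2.2, one_mul]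
  inv_mem' {a} ha := by
    have he := Units.inv_eq_of_mul_eq_one_right (ha.1.mul_inverse ha.2.2)
    have h1 : res.mapMatrix ((a⁻¹ : (M2 A)ˣ) : M2 A) = 1 := by
      have := congrArg res.mapMatrix a.mul_inv
      rwa [map_mul, ha.2.1, one_mul, map_one] at this
    have h2 : ((a⁻¹ : (M2 A)ˣ) : M2 A).det = 1 := by
      have := congrArg Matrix.det a.mul_inv
      rwa [Matrix.det_mul, ha.2.2, one_mul, Matrix.det_one] at this
    exact ⟨he ▸ isC_cMat _ _, h1, h2⟩

instance (res : A →+* ZMod 2) : CommGroup (principal res) :=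
  { (principal res).toGroup with
    mul_comm := fun x y => Subtype.ext (Units.ext (x.2.1.mul_comm y.2.1)) }

theorem exists_pow_eq_one_of_principal {res : A →+* ZMod 2}
    (hnilp : ∀ x, res x = 0 → IsNilpotent x) (x : principal res) : ∃ k, x ^ 2 ^ k = 1 := by
  set M : M2 A := ((x : (M2 A)ˣ) : M2 A) - 1 with hM
  have hMC : IsC M := by rw [hM, CharTwo.sub_eq_add]; exact x.2.1.add isC_one
  have hM0 : ∀ i j, res (M i j) = 0 := fun i j => by
    have h : res.mapMatrix M = 0 := by rw [hM, map_sub, x.2.2.1, map_one, sub_self]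
    exact congrFun (congrFun h i) j
  have he : M = M 0 0 • cMat 1 0 + M 0 1 • cMat 0 1 := by
    conv_lhs => rw [hMC.eq_cMat]
    ext i j
    fin_cases i <;> fin_cases j <;> simp [cMat]
  have hsm : ∀ (t : A) (Y : M2 A), IsNilpotent t → IsNilpotent (t • Y) := fun t Y ⟨m, hm⟩ =>
    ⟨m, by rw [smul_pow, hm, zero_smul]⟩
  have hn : IsNilpotent M := by
    rw [he]
    exact Commute.isNilpotent_add (IsC.mul_comm ((isC_cMat _ _).smul _) ((isC_cMat _ _).smul _))
      (hsm _ _ (hnilp _ (hM0 0 0))) (hsm _ _ (hnilp _ (hM0 0 1)))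
  obtain ⟨m, hm⟩ := hn
  refine ⟨m, Subtype.ext (Units.ext ?_)⟩
  change ((x : (M2 A)ˣ) : M2 A) ^ 2 ^ m = 1
  rw [show ((x : (M2 A)ˣ) : M2 A) = 1 + M by rw [hM, add_sub_cancel],
    add_pow_char_pow_of_commute (p := 2) (h := Commute.one_left M), one_pow,
    pow_eq_zero_of_le (Nat.lt_two_pow_self).le hm, add_zero]

/-- Adjoining square roots of one doubles the exponent. -/
theorem exists_subring_card_le {A : Type v} [CommRing A] [Finite A] (T : Subring A) (n : ℕ)
    (hT : Nat.card T ≤ 2 ^ n) {J : Type} (S : Finset J) (lam : J → A)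
    (hlam : ∀ j, lam j * lam j = 1) :
    ∃ B : Subring A, T ≤ B ∧ (∀ j ∈ S, lam j ∈ B) ∧ Nat.card B ≤ 2 ^ (n * 2 ^ S.card) := by
  classical
  induction S using Finset.induction_on with
  | empty => exact ⟨T, le_rfl, by simp, by simpa using hT⟩
  | insert a s ha ih =>
    obtain ⟨B, hTB, hB, hcard⟩ := ih
    let F : B × B → A := fun p => (p.1 : A) + (p.2 : A) * lam a
    let B' : Subring A :=
      { carrier := Set.range F
        one_mem' := ⟨(1, 0), by simp [F]⟩
        zero_mem' := ⟨(0, 0), by simp [F]⟩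
        add_mem' := by
          rintro _ _ ⟨p, rfl⟩ ⟨q, rfl⟩
          exact ⟨(p.1 + q.1, p.2 + q.2), by simp [F]; ring⟩
        neg_mem' := by
          rintro _ ⟨p, rfl⟩
          exact ⟨(-p.1, -p.2), by simp [F]; ring⟩
        mul_mem' := by
          rintro _ _ ⟨p, rfl⟩ ⟨q, rfl⟩
          refine ⟨(p.1 * q.1 + p.2 * q.2, p.1 * q.2 + p.2 * q.1), ?_⟩
          simp only [F, Subring.coe_add, Subring.coe_mul]
          linear_combination (-(p.2 : A) * q.2) * hlam a }
    have hB' : B ≤ B' := fun x hx => ⟨(⟨x, hx⟩, 0), by simp [F]⟩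
    refine ⟨B', hTB.trans hB', fun j hj => ?_, ?_⟩
    · rcases Finset.mem_insert.1 hj with rfl | hj
      · exact ⟨(0, 1), by simp [F]⟩
      · exact hB' (hB j hj)
    · calc Nat.card B' ≤ Nat.card (B × B) :=
            (Finite.card_range_le F : Nat.card (Set.range F) ≤ _)
        _ = Nat.card B * Nat.card B := Nat.card_prod _ _
        _ ≤ 2 ^ (n * 2 ^ s.card) * 2 ^ (n * 2 ^ s.card) := Nat.mul_le_mul hcard hcard
        _ = 2 ^ (n * 2 ^ (insert a s).card) := by
            rw [← pow_add, Finset.card_insert_of_notMem ha, pow_succ, ← Nat.mul_assoc,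
              Nat.mul_two]

theorem Rep.card_le_of_range_le [Finite A] (R : Rep sh A) (hsel : sh.NoSelmer) (S : Finset sh.J)
    (hgen : Subring.closure
      ((Set.range fun g => (R.rho g).trace) ∪ (fun j => (R.lam j : A)) '' ↑S) = ⊤) (b : ℕ)
    (hb : ∀ (B : Type v) [CommGroup B] [Finite B] (f : sh.rotations →* B),
      (∀ h, ∃ k, f h ^ 2 ^ k = 1) → (∀ h : sh.rotations, sh.IsKilled h → f h = 1) →
        Nat.card f.range ≤ b) :
    Nat.card A ≤ 2 ^ (b * 2 ^ S.card) := by
  classical
  obtain ⟨P, hP, hdih⟩ := R.exists_dihedral hsel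
  set R' := R.conj P hP with hR'
  have htrace : ∀ g, (R'.rho g).trace = (R.rho g).trace := fun g =>
    Matrix.trace_units_conj P (R.rho g)
  have hpar : ∀ h : sh.rotations, sh.par h = true := fun h => h.2
  have hparC : ∀ h : sh.rotations, IsC (R'.rho h) ∧ IsC (sh.r h) := fun h => by
    rcases sh.isC_or_isV (h : G) with h' | h'
    · exact ⟨hdih.isC _ h', h'⟩
    · exact absurd ((sh.par_eq_false h').symm.trans (hpar h)) (by simp)
  have hrdet : ∀ g, (sh.r g).det = 1 := fun g => by
    rw [← R'.res_rho g]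
    change (R'.res.mapMatrix (R'.rho g)).det = 1
    rw [← RingHom.map_det, R'.det_rho, map_one]
  let L : M2 (ZMod 2) →+* M2 A := liftM A
  have hLC : ∀ h : sh.rotations, IsC (L (sh.r (h⁻¹ : sh.rotations))) := fun h =>
    IsC.map (hparC h⁻¹).2 _
  let η₀ : sh.rotations →* M2 A :=
    { toFun := fun h => R'.rho h * L (sh.r (h⁻¹ : sh.rotations))
      map_one' := by simp
      map_mul' := fun a b => by
        rw [mul_inv_rev, Subgroup.coe_mul, Subgroup.coe_mul, map_mul, map_mul, map_mul]
        rw [mul_assoc, mul_assoc]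
        congr 1
        rw [← mul_assoc, IsC.mul_comm ((hparC b).1.mul (hLC b)) (hLC a)] }
  have hη : ∀ h, η₀.toHomUnits h ∈ principal R.res := fun h => by
    refine ⟨(hparC h).1.mul (hLC h), ?_, ?_⟩
    · change R.res.mapMatrix (R'.rho h * liftM A (sh.r (h⁻¹ : sh.rotations))) = 1
      rw [map_mul, mapMatrix_liftM, show R.res.mapMatrix (R'.rho h) = sh.r h from R'.res_rho _,
        Subgroup.coe_inv, sh.r_mul_r_inv]
    · change (R'.rho h * liftM A (sh.r (h⁻¹ : sh.rotations))).det = 1
      rw [Matrix.det_mul, R'.det_rho, det_liftM _ (hrdet _), one_mul]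
  let η : sh.rotations →* principal R.res := η₀.toHomUnits.codRestrict _ hη
  have hkill : ∀ h : sh.rotations, sh.IsKilled h → η h = 1 := fun h ⟨x, s, hx, hs⟩ => by
    have h1 : R'.rho s = 1 := by
      rcases hs with hs | ⟨i, hs, hr⟩ | ⟨j, hs⟩
      · exact R'.triv_Z s hs
      · exact R'.triv_inertiaU i s hs hr
      · exact hdih.inertia j s hs
    have h2 : R'.rho h = 1 := by
      rw [hx, map_mul, map_mul, h1, mul_one, ← map_mul, mul_inv_cancel, map_one]
    have h3 : sh.r (h : G) = 1 := by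
      rw [← R'.res_rho, h2]
      exact map_one R'.res.mapMatrix
    have h4 : sh.r (h : G)⁻¹ = 1 := by
      have := sh.r_mul_r_inv (h : G)
      rwa [h3, one_mul] at this
    refine Subtype.ext (Units.ext ?_)
    change R'.rho h * liftM A (sh.r (h⁻¹ : sh.rotations)) = 1
    rw [h2, Subgroup.coe_inv, h4, map_one, one_mul]
  have hrange := hb (principal R.res) η
    (fun h => exists_pow_eq_one_of_principal R.nilp (η h)) hkill
  let C := η.range
  let π : sh.rotations →* C := η.rangeRestrict
  let f' : C →* principal R.res := η.range.subtype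
  have hf' : ∀ h, f' (π h) = η h := fun h => rfl
  let X : C → M2 A := fun c => ((f' c : (M2 A)ˣ) : M2 A)
  have hXC : ∀ c, IsC (X c) := fun c => (f' c).2.1
  have hXmul : ∀ c d, X (c * d) = X c * X d := fun c d => by simp [X]
  have hXinv : ∀ c, X c⁻¹ = cMat (X c 0 0 + X c 0 1) (X c 0 1) := fun c => by
    simp only [X, map_inv, Subgroup.coe_inv]
    exact Units.inv_eq_of_mul_eq_one_right ((hXC c).mul_inverse (f' c).2.2.2)
  let a : C → A := fun c => X c 0 0
  have ha_inv : ∀ c, a c⁻¹ = a c + X c 0 1 := fun c => by simp [a, hXinv, cMat]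
  have ha_mul : ∀ c d, a (c * d) = a c * a d + X c 0 1 * X d 0 1 := fun c d => by
    simp only [a, hXmul, Matrix.mul_apply, Fin.sum_univ_two, (hXC d).1]
  have hbmul : ∀ c, X c⁻¹ 0 1 = X c 0 1 := fun c => by simp [hXinv, cMat]
  have := Fintype.ofFinite C
  let cast : ZMod 2 →+* A := ZMod.castHom (dvd_refl 2) A
  let Φ : (C → ZMod 2) →+ A :=
    { toFun := fun e => ∑ c, cast (e c) * a c
      map_zero' := by simp
      map_add' := fun e e' => by simp [add_mul, Finset.sum_add_distrib] }
  have hmem : ∀ c, a c ∈ Φ.range := fun c => ⟨Pi.single c 1, by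
    simp [Φ, Pi.single_apply, apply_ite cast, ite_mul]⟩
  have hb : ∀ c, X c 0 1 ∈ Φ.range := fun c => by
    have h := Φ.range.add_mem (hmem c) (hmem c⁻¹)
    rwa [ha_inv, ← add_assoc, CharTwo.add_self_eq_zero, zero_add] at h
  have hcast : ∀ (z : ZMod 2) (y : A), y ∈ Φ.range → cast z * y ∈ Φ.range := fun z y hy => by
    rcases (show z = 0 ∨ z = 1 by revert z; decide) with rfl | rfl
    · simp [Φ.range.zero_mem]
    · simpa using hy
  have hprod : ∀ c d, a c * a d ∈ Φ.range := fun c d => by
    have key : a c * a d = a (c⁻¹ * d⁻¹) + a (c * d⁻¹) + a (c⁻¹ * d) := by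
      simp only [ha_mul, ha_inv, hbmul]
      have h2 : (2 : A) = 0 := CharTwo.two_eq_zero
      linear_combination (-(a c * a d) - a c * X d 0 1 - X c 0 1 * a d -
        2 * (X c 0 1 * X d 0 1)) * h2
    rw [key]
    exact Φ.range.add_mem (Φ.range.add_mem (hmem _) (hmem _)) (hmem _)
  let T : Subring A :=
    { carrier := Φ.range
      one_mem' := ⟨Pi.single 1 1, by
        simp [Φ, Pi.single_apply, apply_ite cast, ite_mul, a, X]⟩
      zero_mem' := Φ.range.zero_mem
      add_mem' := Φ.range.add_mem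
      neg_mem' := Φ.range.neg_mem
      mul_mem' := by
        rintro _ _ ⟨e, rfl⟩ ⟨e', rfl⟩
        change (∑ c, cast (e c) * a c) * (∑ c, cast (e' c) * a c) ∈ Φ.range
        rw [Finset.sum_mul_sum]
        refine Φ.range.sum_mem fun c _ => Φ.range.sum_mem fun d _ => ?_
        rw [mul_mul_mul_comm, ← map_mul]
        exact hcast _ _ (hprod c d) }
  have hTcard : Nat.card T ≤ 2 ^ Nat.card C := by
    refine (Finite.card_range_le Φ : Nat.card (Set.range Φ) ≤ _).trans (le_of_eq ?_)
    rw [Nat.card_fun, Nat.card_zmod]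
  have htrT : ∀ g, (R.rho g).trace ∈ T := fun g => by
    rw [← htrace]
    rcases sh.isC_or_isV g with hg | hg
    · let h : sh.rotations := ⟨g, sh.par_eq_true hg⟩
      have e : R'.rho g = X (π h) * L (sh.r g) := by
        simp only [X, hf']
        change R'.rho g = R'.rho g * L (sh.r g⁻¹) * L (sh.r g)
        rw [mul_assoc, ← map_mul L, sh.r_inv_mul_r, map_one, mul_one]
      have hL : IsC (L (sh.r g)) := IsC.map hg _
      rw [(hdih.isC g hg).trace_eq, e, Matrix.mul_apply, Fin.sum_univ_two, hL.2,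
        show L (sh.r g) 0 1 = cast (sh.r g 0 1) from rfl,
        show L (sh.r g) 0 0 = cast (sh.r g 0 0) from rfl, mul_comm, mul_comm (X (π h) 0 1),
        add_mul]
      exact Φ.range.add_mem (hcast _ _ (hmem _))
        (Φ.range.add_mem (hcast _ _ (hb _)) (hcast _ _ (hb _)))
    · rw [(hdih.isV g hg).trace_eq_zero]
      exact T.zero_mem
  have hlam : ∀ j, (R.lam j : A) * (R.lam j : A) = 1 := fun j => by
    have h := R'.trace_frob j
    rw [(hdih.isV _ (sh.isV_frob j)).trace_eq_zero, eq_comm, CharTwo.add_eq_zero] at h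
    exact (congrArg ((R.lam j : A) * ·) h).trans (R.lam j).mul_inv
  obtain ⟨B, hTB, hB, hcard⟩ :=
    exists_subring_card_le T (Nat.card C) hTcard S (fun j => (R.lam j : A)) hlam
  have htop : B = ⊤ := by
    rw [eq_top_iff, ← hgen, Subring.closure_le]
    rintro x (⟨g, rfl⟩ | ⟨j, hj, rfl⟩)
    · exact hTB (htrT g)
    · exact hB j hj
  rw [htop] at hcard
  exact ((Nat.card_congr Subring.topEquiv.toEquiv).symm.trans_le hcard).trans
    (Nat.pow_le_pow_right two_pos (Nat.mul_le_mul_right _ hrange))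

theorem Rep.card_le [Finite A] [Finite sh.J] (R : Rep sh A) (hsel : sh.NoSelmer)
    (hgen : Subring.closure
      ((Set.range fun g => (R.rho g).trace) ∪ Set.range fun j => (R.lam j : A)) = ⊤)
    {C : Type*} [CommGroup C] [Finite C] (π : sh.rotations →* C)
    (hC : sh.FactorsThrough.{u, v} π) :
    Nat.card A ≤ 2 ^ (Nat.card C * 2 ^ Nat.card sh.J) := by
  have := Fintype.ofFinite sh.J
  rw [Nat.card_eq_fintype_card (α := sh.J), ← Finset.card_univ]
  refine R.card_le_of_range_le hsel Finset.univ ?_ _ fun B _ _ f h2 hk => ?_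
  · rwa [Finset.coe_univ, Set.image_univ]
  · obtain ⟨f', hf'⟩ := hC B f h2 hk
    refine le_trans (Nat.card_le_card_of_injective (Set.inclusion (?_ : (f.range : Set B) ⊆ Set.range f'))
      (Set.inclusion_injective _)) (Finite.card_range_le f')
    rintro _ ⟨h, rfl⟩
    exact ⟨π h, hf' h⟩

end Fermat.Agent.TwoAdic.Dihedral
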