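import Fermat.Agent.TwoAdic.Dihedral.Matrices
import Mathlib.RingTheory.Nilpotent.Basic

/-!
# Dihedral deformation data in characteristic two

`Shape` records a residual representation `r : G →* M₂(𝔽₂)` with the relevant local subsets:
`U` indexes the multiplicative places (inertia of residual image of order two), `J` the places with
unramified residual representation and Frobenius a transposition (the auxiliary primes `Q` and
the place two), `Z` is a set of elements killed by the deformations considered.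
`Rep` is a representation of this shape over a local ring `A` with residue field `𝔽₂` and `2 = 0`.
-/

set_option autoImplicit false

namespace Fermat.Agent.TwoAdic.Dihedral

universe u v

/-- The residual representation and the local data. -/
structure Shape (G : Type u) [Group G] where
  r : G →* M2 (ZMod 2)
  U : Type
  decompU : U → Set G
  inertiaU : U → Set G
  sigma : U → G
  sigma_mem_decompU : ∀ i, sigma i ∈ decompU i
  isV_sigma : ∀ i, IsV (r (sigma i))
  r_decompU : ∀ i, ∀ g ∈ decompU i, r g = 1 ∨ r g = r (sigma i)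
  J : Type
  inertia : J → Set G
  frob : J → G
  isV_frob : ∀ j, IsV (r (frob j))
  r_inertia : ∀ j, ∀ g ∈ inertia j, r g = 1
  /-- The auxiliary primes among the places in `J`. -/
  Q : Set J
  Z : Set G

variable {G : Type u} [Group G]

/-- A representation of the given shape. -/
structure Rep (sh : Shape G) (A : Type v) [CommRing A] where
  rho : G →* M2 A
  res : A →+* ZMod 2
  nilp : ∀ x, res x = 0 → IsNilpotent x
  res_rho : ∀ g, (rho g).map res = sh.r g
  lam : sh.J → Aˣ
  det_rho : ∀ g, (rho g).det = 1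
  trace_sigma : ∀ i, (rho (sh.sigma i)).trace = 0
  triv_inertiaU : ∀ i, ∀ g ∈ sh.inertiaU i, sh.r g = 1 → rho g = 1
  comm_decompU : ∀ i, ∀ g ∈ sh.decompU i,
    rho g * rho (sh.sigma i) = rho (sh.sigma i) * rho g
  trace_frob : ∀ j, (rho (sh.frob j)).trace = (lam j : A) + ((lam j)⁻¹ : Aˣ)
  inertia_rel : ∀ j, ∀ g ∈ sh.inertia j,
    (rho g - 1) * (rho (sh.frob j) - (lam j : A) • 1) = 0
  lam_sq : ∀ j ∈ sh.Q, lam j * lam j = 1
  triv_Z : ∀ g ∈ sh.Z, rho g = 1

/-- Cocycles with values in the three transpositions and zero satisfying the local conditions. -/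
structure Shape.IsSelmer (sh : Shape G) (v : G → M2 (ZMod 2)) : Prop where
  isV : ∀ g, IsV (v g)
  cocycle : ∀ g h, v (g * h) = sh.r g * v h * sh.r g⁻¹ + v g
  zero_Z : ∀ g ∈ sh.Z, v g = 0
  zero_inertiaU : ∀ i, ∀ g ∈ sh.inertiaU i, sh.r g = 1 → v g = 0
  line_decompU : ∀ i, ∀ g ∈ sh.decompU i, v g = 0 ∨ v g = sh.r (sh.sigma i)
  line_inertia : ∀ j, ∀ g ∈ sh.inertia j, v g = 0 ∨ v g = sh.r (sh.frob j)
  line_frob : ∀ j ∈ sh.Q, v (sh.frob j) = 0 ∨ v (sh.frob j) = sh.r (sh.frob j)

/-- Every Selmer cocycle is a coboundary. -/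
def Shape.NoSelmer (sh : Shape G) : Prop :=
  ∀ v, sh.IsSelmer v → ∃ Y : M2 (ZMod 2), IsV Y ∧ ∀ g, v g = sh.r g * Y * sh.r g⁻¹ + Y

variable {sh : Shape G} {A : Type v} [CommRing A]

/-- The parity of `f` is that of the residual representation and inertia in `J` dies. -/
structure Shape.IsDihedral (sh : Shape G) (f : G → M2 A) : Prop where
  isC : ∀ g, IsC (sh.r g) → IsC (f g)
  isV : ∀ g, IsV (sh.r g) → IsV (f g)
  inertia : ∀ j, ∀ g ∈ sh.inertia j, f g = 1

theorem Shape.r_mul_r_inv (sh : Shape G) (g : G) : sh.r g * sh.r g⁻¹ = 1 := by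
  rw [← map_mul, mul_inv_cancel, map_one]

theorem Shape.r_inv_mul_r (sh : Shape G) (g : G) : sh.r g⁻¹ * sh.r g = 1 := by
  rw [← map_mul, inv_mul_cancel, map_one]

theorem Shape.r_ne_zero (sh : Shape G) (g : G) : sh.r g ≠ 0 := fun h => by
  have := sh.r_mul_r_inv g
  rw [h, zero_mul] at this
  exact zero_ne_one this

/-- An invertible matrix over `𝔽₂` is in the commutant of `w₀` or in its complement. -/
theorem isC_or_isV_of_det_ne_zero : ∀ X : M2 (ZMod 2), X.det ≠ 0 → IsC X ∨ IsV X := by
  simp only [IsC, IsV, Matrix.det_fin_two]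
  intro X
  revert X
  decide

theorem Shape.isC_or_isV (sh : Shape G) (g : G) : IsC (sh.r g) ∨ IsV (sh.r g) :=
  isC_or_isV_of_det_ne_zero _ fun h => by
    have := congrArg Matrix.det (sh.r_mul_r_inv g)
    rw [Matrix.det_mul, h, zero_mul, Matrix.det_one] at this
    exact zero_ne_one this

theorem Shape.not_isC_of_isV (sh : Shape G) {g : G} (h : IsV (sh.r g)) : ¬ IsC (sh.r g) :=
  fun h' => sh.r_ne_zero g (eq_zero_of_isC_of_isV h' h)

theorem Rep.isUnit_of_res_ne_zero (R : Rep sh A) {x : A} (h : R.res x ≠ 0) : IsUnit x := by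
  have h1 : R.res x = 1 := by
    revert h; generalize R.res x = y; revert y; decide
  have h0 : IsNilpotent (x - 1) := R.nilp _ (by rw [map_sub, h1, map_one, sub_self])
  simpa using h0.isUnit_add_one

/-- Push a representation along a ring map compatible with the residue maps. -/
def Rep.map (R : Rep sh A) {B : Type v} [CommRing B] (f : A →+* B) (res' : B →+* ZMod 2)
    (hres : ∀ x, res' (f x) = R.res x) (hnilp : ∀ y, res' y = 0 → IsNilpotent y) : Rep sh B where
  rho := (f.mapMatrix : M2 A →+* M2 B).toMonoidHom.comp R.rho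
  res := res'
  nilp := hnilp
  res_rho g := by
    rw [← R.res_rho g]
    ext i j
    simp [hres]
  lam j := Units.map f.toMonoidHom (R.lam j)
  det_rho g := by
    change (f.mapMatrix (R.rho g)).det = 1
    rw [← RingHom.map_det, R.det_rho, map_one]
  trace_sigma i := by
    change (f.mapMatrix (R.rho (sh.sigma i))).trace = 0
    have h := congrArg f (R.trace_sigma i)
    simpa [Matrix.trace_fin_two] using h
  triv_inertiaU i g hg h := by simp [R.triv_inertiaU i g hg h]
  comm_decompU i g hg := by
    change f.mapMatrix _ * f.mapMatrix _ = f.mapMatrix _ * f.mapMatrix _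
    exact (map_mul f.mapMatrix _ _).symm.trans
      ((congrArg f.mapMatrix (R.comm_decompU i g hg)).trans (map_mul f.mapMatrix _ _))
  trace_frob j := by
    change (f.mapMatrix (R.rho (sh.frob j))).trace = _
    have h := congrArg f (R.trace_frob j)
    simpa [Matrix.trace_fin_two] using h
  inertia_rel j g hg := by
    have h : f.mapMatrix ((R.rho g - 1) * (R.rho (sh.frob j) - (R.lam j : A) • 1)) = 0 := by
      rw [R.inertia_rel j g hg, map_zero]
    have key : f.mapMatrix ((R.lam j : A) • (1 : M2 A)) = f (R.lam j : A) • 1 := by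
      ext i j'
      by_cases hij : i = j' <;> simp [hij]
    rw [map_mul, map_sub, map_sub, map_one, key] at h
    exact h
  lam_sq j hj := by rw [← map_mul, R.lam_sq j hj, map_one]
  triv_Z g hg := by simp [R.triv_Z g hg]

/-- Conjugate by a matrix congruent to one. -/
def Rep.conj (R : Rep sh A) (P : (M2 A)ˣ) (hP : (P : M2 A).map R.res = 1) : Rep sh A where
  rho :=
    { toFun := fun g => (P : M2 A) * R.rho g * ((P⁻¹ : (M2 A)ˣ) : M2 A)
      map_one' := by simp
      map_mul' := fun g h => by simp [mul_assoc] }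
  res := R.res
  nilp := R.nilp
  res_rho g := by
    change R.res.mapMatrix ((P : M2 A) * R.rho g * ((P⁻¹ : (M2 A)ˣ) : M2 A)) = sh.r g
    have hP' : R.res.mapMatrix (P : M2 A) = 1 := hP
    have hPi : R.res.mapMatrix ((P⁻¹ : (M2 A)ˣ) : M2 A) = 1 := by
      have := congrArg R.res.mapMatrix P.mul_inv
      rwa [map_mul, hP', one_mul, map_one] at this
    rw [map_mul, map_mul, hP', hPi, one_mul, mul_one]
    exact R.res_rho g
  lam := R.lam
  det_rho g := by
    change ((P : M2 A) * R.rho g * ((P⁻¹ : (M2 A)ˣ) : M2 A)).det = 1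
    rw [Matrix.det_units_conj, R.det_rho g]
  trace_sigma i := by simp [Matrix.trace_units_conj, R.trace_sigma i]
  triv_inertiaU i g hg h := by simp [R.triv_inertiaU i g hg h]
  comm_decompU i g hg := by
    simp only [MonoidHom.coe_mk, OneHom.coe_mk]
    simp only [mul_assoc, Units.inv_mul_cancel_left]
    rw [← mul_assoc (R.rho g), R.comm_decompU i g hg, mul_assoc]
  trace_frob j := by simp [Matrix.trace_units_conj, R.trace_frob j]
  inertia_rel j g hg := by
    simp only [MonoidHom.coe_mk, OneHom.coe_mk]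
    have h : ∀ X : M2 A, ∀ t : A, (P : M2 A) * X * ((P⁻¹ : (M2 A)ˣ) : M2 A) - t • 1 =
        (P : M2 A) * (X - t • 1) * ((P⁻¹ : (M2 A)ˣ) : M2 A) := fun X t => by
      simp [mul_sub, sub_mul]
    have h1 : (P : M2 A) * R.rho g * ((P⁻¹ : (M2 A)ˣ) : M2 A) - 1 =
        (P : M2 A) * (R.rho g - 1) * ((P⁻¹ : (M2 A)ˣ) : M2 A) := by
      simp [mul_sub, sub_mul]
    rw [h, h1]
    simp only [mul_assoc, Units.inv_mul_cancel_left]
    rw [← mul_assoc (R.rho g - 1), R.inertia_rel j g hg, zero_mul, mul_zero]
  lam_sq := R.lam_sq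
  triv_Z g hg := by simp [R.triv_Z g hg]

end Fermat.Agent.TwoAdic.Dihedral
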