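import Fermat.Agent.TwoAdic.Dihedral.Inertia
import Fermat.Agent.TwoAdic.Dihedral.Bound
import Fermat.Agent.TwoAdic.Selmer.PlaneMat
import Fermat.Agent.TwoAdic.Galois.Interface

/-!
# The shape of a class C curve and an auxiliary set

One place is chosen over every bad prime, every auxiliary prime and `2`. Selmer cocycles of the
shape are the classes of `IsSelmerClass`, and the homomorphisms on the rotations killing the killed
elements are the unramified characters of `GK N`.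
-/

set_option autoImplicit false

noncomputable section

namespace Fermat.Agent.TwoAdic.Dihedral

open Arith (QBar GQ)
open scoped Pointwise
open Selmer (planeOfMat)

section Mat

theorem isV_of_sq_eq_one {X : M2 (ZMod 2)} (h : X * X = 1) (hne : X ≠ 1) : IsV X := by
  revert h hne
  rw [Matrix.eta_fin_two X]
  generalize X 0 0 = a, X 0 1 = b, X 1 0 = c, X 1 1 = d
  revert a b c d
  simp only [IsV]
  decide

theorem involution_cases {X Y : M2 (ZMod 2)} (hX : X * X = 1) (hY : Y * Y = 1)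
    (hXY : X * Y * (X * Y) = 1) (hY1 : Y ≠ 1) : X = 1 ∨ X = Y := by
  revert hX hY hXY hY1
  rw [Matrix.eta_fin_two X, Matrix.eta_fin_two Y]
  generalize X 0 0 = a, X 0 1 = b, X 1 0 = c, X 1 1 = d, Y 0 0 = a', Y 0 1 = b', Y 1 0 = c',
    Y 1 1 = d'
  revert a b c d a' b' c' d'
  decide

theorem exists_mulVec_eq_of_fixed {X : M2 (ZMod 2)} {v : Fin 2 → ZMod 2} (hX : X * X = 1)
    (hne : X ≠ 1) (hv : X.mulVec v = v) : ∃ w, (X - 1).mulVec w = v := by
  revert hX hne hv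
  rw [Matrix.eta_fin_two X]
  generalize X 0 0 = a, X 0 1 = b, X 1 0 = c, X 1 1 = d
  revert a b c d v
  decide

theorem isC_iff_cube {X : M2 (ZMod 2)} (h : X.det = 1) : IsC X ↔ X * X * X = 1 := by
  rw [Matrix.det_fin_two] at h
  revert h
  rw [Matrix.eta_fin_two X]
  generalize X 0 0 = a, X 0 1 = b, X 1 0 = c, X 1 1 = d
  revert a b c d
  simp only [IsC]
  decide

theorem sign_iff_cube : ∀ p : Equiv.Perm (Fin 3), Equiv.Perm.sign p = 1 ↔ p * p * p = 1 := by
  decide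

theorem perm_fix_sq : ∀ p : Equiv.Perm (Fin 3), ∀ i, p i = i → p * p = 1 := by decide

end Mat

variable {W : WeierstrassCurve ℤ} {hW : IsClassC W}

open Residual in
theorem isC_rhoBar_iff (hW : IsClassC W) (σ : GQ) :
    IsC (rhoBar W hW.Δ_ne_zero σ) ↔ σ ∈ GK W.conductorLevel := by
  rw [isC_iff_cube (Selmer.det_residual (r := rhoBar W hW.Δ_ne_zero) σ),
    mem_GK_iff hW.Δ_ne_zero hW, sign_iff_cube, ← map_mul, ← map_mul, rhoBar_eq_one_iff, map_mul,
    map_mul]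

/-- A place over a natural number, junk unless it is prime. -/
def plc (l : ℕ) : ValuationSubring QBar :=
  if h : l.Prime then (Arith.exists_liesOverPrime h).choose else ⊤

theorem plc_spec {l : ℕ} (h : l.Prime) : (plc l).LiesOverPrime l := by
  rw [plc, dif_pos h]
  exact (Arith.exists_liesOverPrime h).choose_spec

/-- A Frobenius at the chosen place. -/
def frb (l : ℕ) : GQ :=
  if h : l.Prime then (Arith.exists_isFrobeniusAt (plc_spec h) h).choose else 1

theorem frb_spec {l : ℕ} (h : l.Prime) : (plc l).IsFrobeniusAt (frb l) l := by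
  rw [frb, dif_pos h]
  exact (Arith.exists_isFrobeniusAt (plc_spec h) h).choose_spec

/-- The bad primes. -/
def BadPrime (W : WeierstrassCurve ℤ) : Type := {l : ℕ // l.Prime ∧ (l : ℤ) ∣ W.Δ}

theorem BadPrime.ne_two (hW : IsClassC W) (i : BadPrime W) : i.1 ≠ 2 := fun h => by
  have h1 := i.2.2
  rw [h] at h1
  have := hW.Δ_mod_eight
  omega

/-- The generating inertia element at the chosen place over a bad prime. -/
def gen (hW : IsClassC W) (i : BadPrime W) : GQ :=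
  (exists_inertia_involution i.2.1 (i.ne_two hW) (plc_spec i.2.1)).choose

theorem gen_mem (hW : IsClassC W) (i : BadPrime W) :
    gen hW i ∈ (plc i.1).inertiaSubgroupIn ℚ :=
  (exists_inertia_involution i.2.1 (i.ne_two hW) (plc_spec i.2.1)).choose_spec.1

theorem gen_spec (hW : IsClassC W) (i : BadPrime W) :
    ∀ (M : Type) [Monoid M] (ρ : GQ →* M),
      (∃ L : IntermediateField ℚ QBar, FiniteDimensional ℚ L ∧
        ∀ σ : GQ, (∀ x ∈ L, σ x = x) → ρ σ = 1) →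
      (∀ g ∈ (plc i.1).inertiaSubgroupIn ℚ, ρ g * ρ g = 1) →
      ∀ g ∈ (plc i.1).inertiaSubgroupIn ℚ, ρ g = 1 ∨ ρ g = ρ (gen hW i) :=
  (exists_inertia_involution i.2.1 (i.ne_two hW) (plc_spec i.2.1)).choose_spec.2

theorem rhoBar_sq_inertia (hW : IsClassC W) {A : ValuationSubring QBar} {l : ℕ} (hl : l.Prime)
    (hdvd : (l : ℤ) ∣ W.Δ) (hA : A.LiesOverPrime l) {σ : GQ} (hσ : σ ∈ A.inertiaSubgroupIn ℚ) :
    rhoBar W hW.Δ_ne_zero σ * rhoBar W hW.Δ_ne_zero σ = 1 := by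
  rw [← map_mul, Residual.rhoBar_eq_one_iff, map_mul]
  exact Residual.perm_inertia_bad hW.Δ_ne_zero hW hl hdvd hA hσ

theorem rhoBar_gen_ne_one (hW : IsClassC W) (i : BadPrime W) :
    rhoBar W hW.Δ_ne_zero (gen hW i) ≠ 1 := by
  rw [ne_eq, Residual.rhoBar_eq_one_iff]
  intro h
  refine sign_perm_ne_one hW.Δ_ne_zero hW i.2.1 i.2.2 (plc_spec i.2.1) (gen_spec hW i) ?_
  rw [h, map_one]

theorem rhoBar_inertia_two (hW : IsClassC W) {A : ValuationSubring QBar} (hA : A.LiesOverPrime 2)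
    {σ : GQ} (hσ : σ ∈ A.inertiaSubgroupIn ℚ) : rhoBar W hW.Δ_ne_zero σ = 1 :=
  (Residual.rhoBar_eq_one_iff W _ σ).2 (Residual.perm_inertia_GK hW.Δ_ne_zero hW Nat.prime_two hA hσ
    ((sqrtNeg_two hW hA).1 σ hσ))

theorem rhoBar_inertia_good (hW : IsClassC W) {A : ValuationSubring QBar} {l : ℕ} (hl : l.Prime)
    (hl2 : l ≠ 2) (hgood : W.IsGoodPrimeFor l) (hA : A.LiesOverPrime l) {σ : GQ}
    (hσ : σ ∈ A.inertiaSubgroupIn ℚ) : rhoBar W hW.Δ_ne_zero σ = 1 :=
  (Residual.rhoBar_eq_one_iff W _ σ).2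
    (Residual.perm_inertia_of_good hW.Δ_ne_zero hl hl2 hgood hA hσ)

theorem rhoBar_frobenius_two (hW : IsClassC W) {A : ValuationSubring QBar} (hA : A.LiesOverPrime 2)
    {σ : GQ} (hσ : A.IsFrobeniusAt σ 2) :
    rhoBar W hW.Δ_ne_zero σ * rhoBar W hW.Δ_ne_zero σ = 1 ∧ rhoBar W hW.Δ_ne_zero σ ≠ 1 := by
  rw [← map_mul, ne_eq, Residual.rhoBar_eq_one_iff, Residual.rhoBar_eq_one_iff, map_mul]
  obtain ⟨i, hi⟩ := Residual.exists_fixed_decomposition_two hW.Δ_ne_zero hW hA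
  refine ⟨perm_fix_sq _ i (hi σ (Arith.isFrobeniusAt_iff_forall_mem.1 hσ).1), fun h => ?_⟩
  refine (sqrtNeg_two hW hA).2 σ hσ ((Residual.mem_GK_iff hW.Δ_ne_zero hW σ).2 ?_)
  rw [h, map_one]

/-- The auxiliary primes and `2`. -/
def auxPrime {Q : Finset ℕ} : Option ↥Q → ℕ
  | none => 2
  | some q => q.1

theorem auxPrime_prime {Q : Finset ℕ} {hΔ : W.Δ ≠ 0} (hQ : ∀ q ∈ Q, IsAuxPrime W hΔ 1 q) :
    ∀ j : Option ↥Q, (auxPrime j).Prime
  | none => Nat.prime_two
  | some q => (hQ q.1 q.2).prime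

theorem auxPrime_frob (hW : IsClassC W) {Q : Finset ℕ}
    (hQ : ∀ q ∈ Q, IsAuxPrime W hW.Δ_ne_zero 1 q) (j : Option ↥Q) {A : ValuationSubring QBar}
    (hA : A.LiesOverPrime (auxPrime j)) {σ : GQ} (hσ : A.IsFrobeniusAt σ (auxPrime j)) :
    rhoBar W hW.Δ_ne_zero σ * rhoBar W hW.Δ_ne_zero σ = 1 ∧ rhoBar W hW.Δ_ne_zero σ ≠ 1 := by
  match j with
  | none => exact rhoBar_frobenius_two hW hA hσ
  | some q => exact (hQ q.1 q.2).frob_invol A hA σ hσ

theorem auxPrime_inertia (hW : IsClassC W) {Q : Finset ℕ}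
    (hQ : ∀ q ∈ Q, IsAuxPrime W hW.Δ_ne_zero 1 q) (j : Option ↥Q) {A : ValuationSubring QBar}
    (hA : A.LiesOverPrime (auxPrime j)) {σ : GQ} (hσ : σ ∈ A.inertiaSubgroupIn ℚ) :
    rhoBar W hW.Δ_ne_zero σ = 1 := by
  match j with
  | none => exact rhoBar_inertia_two hW hA hσ
  | some q =>
    exact rhoBar_inertia_good hW (hQ q.1 q.2).prime (hQ q.1 q.2).ne_two (hQ q.1 q.2).good hA hσ

/-- The killed elements: a level, good inertia outside the auxiliary set, peu kernels. -/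
def killSet (W : WeierstrassCurve ℤ) (Q : Finset ℕ) (L : IntermediateField ℚ QBar) : Set GQ :=
  {σ | (∀ x ∈ L, σ x = x) ∨
    (∃ (l : ℕ) (A : ValuationSubring QBar), l.Prime ∧ l ≠ 2 ∧ W.IsGoodPrimeFor l ∧ l ∉ Q ∧
      A.LiesOverPrime l ∧ σ ∈ A.inertiaSubgroupIn ℚ) ∨
    ∃ A : ValuationSubring QBar, A.LiesOverPrime 2 ∧ IsPeuKernel A σ}

/-- The shape of a class C curve, an auxiliary set and a level. -/
def curveShape (hW : IsClassC W) {Q : Finset ℕ} (hQ : ∀ q ∈ Q, IsAuxPrime W hW.Δ_ne_zero 1 q)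
    (L : IntermediateField ℚ QBar) : Shape GQ where
  r := rhoBar W hW.Δ_ne_zero
  U := BadPrime W
  decompU i := (plc i.1).inertiaSubgroupIn ℚ
  inertiaU i := (plc i.1).inertiaSubgroupIn ℚ
  sigma := gen hW
  sigma_mem_decompU := gen_mem hW
  isV_sigma i := isV_of_sq_eq_one (rhoBar_sq_inertia hW i.2.1 i.2.2 (plc_spec i.2.1) (gen_mem hW i))
    (rhoBar_gen_ne_one hW i)
  r_decompU i g hg := by
    refine involution_cases (rhoBar_sq_inertia hW i.2.1 i.2.2 (plc_spec i.2.1) hg)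
      (rhoBar_sq_inertia hW i.2.1 i.2.2 (plc_spec i.2.1) (gen_mem hW i)) ?_ (rhoBar_gen_ne_one hW i)
    rw [← map_mul]
    exact rhoBar_sq_inertia hW i.2.1 i.2.2 (plc_spec i.2.1) (mul_mem hg (gen_mem hW i))
  J := Option ↥Q
  inertia j := (plc (auxPrime j)).inertiaSubgroupIn ℚ
  frob j := frb (auxPrime j)
  isV_frob j :=
    have h := auxPrime_frob hW hQ j (plc_spec (auxPrime_prime hQ j)) (frb_spec (auxPrime_prime hQ j))
    isV_of_sq_eq_one h.1 h.2
  r_inertia j g hg := auxPrime_inertia hW hQ j (plc_spec (auxPrime_prime hQ j)) hg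
  Q := {j | j ≠ none}
  Z := killSet W Q L

variable {Q : Finset ℕ} {hQ : ∀ q ∈ Q, IsAuxPrime W hW.Δ_ne_zero 1 q}
  {L : IntermediateField ℚ QBar}

/-- No nontrivial class gives no Selmer cocycle of the shape. -/
theorem noSelmer_curveShape (hsel : SelmerTrivial W hW.Δ_ne_zero Q)
    (hL : FiniteDimensional ℚ L) : (curveShape hW hQ L).NoSelmer := by
  intro v hv
  set r := rhoBar W hW.Δ_ne_zero with hr
  set φ : GQ → Fin 2 → ZMod 2 := fun g => planeOfMat (v g) with hφdef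
  have hcoc : Selmer.IsPlaneCocycle r φ :=
    Selmer.isPlaneCocycle_planeOfMat (r := r) hv.isV hv.cocycle
  have hzero : ∀ g, v g = 0 → φ g = 0 := fun g hg => by
    funext i
    fin_cases i <;> simp [hφdef, planeOfMat, hg]
  have hfix : ∀ g t, IsV (r t) → (v g = 0 ∨ v g = r t) → (r t).mulVec (φ g) = φ g :=
    fun g t ht h => (Selmer.mulVec_eq_self_iff (r := r) ht (hv.isV g)).2 h
  have hconj : ∀ x g, φ (x * g * x⁻¹) = (r x).mulVec (φ g) + φ x
      - (r (x * g * x⁻¹)).mulVec (φ x) := fun x g => by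
    refine eq_sub_of_add_eq ?_
    rw [← hcoc, inv_mul_cancel_right, hcoc, add_comm]
  have hfixJ : ∀ (j : (curveShape hW hQ L).J), ∀ A : ValuationSubring QBar,
      A.LiesOverPrime (auxPrime j) → ∀ σ : GQ, A.IsFrobeniusAt σ (auxPrime j) →
      (∀ τ ∈ A.inertiaSubgroupIn ℚ, (r σ).mulVec (φ τ) = φ τ) ∧
        (j ≠ none → (r σ).mulVec (φ σ) = φ σ) := fun j A hA σ hσ => by
    have hp := auxPrime_prime hQ j
    obtain ⟨x, hx⟩ := Arith.exists_smul_eq (plc_spec hp) hA hp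
    subst hx
    obtain ⟨g, rfl⟩ : ∃ g, σ = x * g * x⁻¹ := ⟨x⁻¹ * σ * x, by group⟩
    have hg : (plc (auxPrime j)).IsFrobeniusAt g (auxPrime j) := by
      have h := Arith.isFrobeniusAt_conj (g := x⁻¹) hσ
      rwa [inv_smul_smul, inv_inv, ← mul_assoc, ← mul_assoc, inv_mul_cancel, one_mul,
        inv_mul_cancel_right] at h
    obtain ⟨t, ht, rfl⟩ : ∃ t ∈ (plc (auxPrime j)).inertiaSubgroupIn ℚ,
        g = frb (auxPrime j) * t :=
      ⟨_, Arith.inv_mul_mem_inertia hg (frb_spec hp), (mul_inv_cancel_left _ _).symm⟩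
    set f := frb (auxPrime j)
    have hVf : IsV (r f) := (curveShape hW hQ L).isV_frob j
    have hrt : r t = 1 := auxPrime_inertia hW hQ j (plc_spec hp) ht
    have hline : ∀ τ ∈ (plc (auxPrime j)).inertiaSubgroupIn ℚ, (r f).mulVec (φ τ) = φ τ :=
      fun τ hτ => hfix τ f hVf (hv.line_inertia j τ hτ)
    have hsq : r (x * (f * t) * x⁻¹) * r (x * (f * t) * x⁻¹) = 1 :=
      (auxPrime_frob hW hQ j hA hσ).1
    have hrx : ∀ u, (r (x * (f * t) * x⁻¹)).mulVec ((r x).mulVec u) =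
        (r x).mulVec ((r f).mulVec u) := fun u => by
      rw [Matrix.mulVec_mulVec, Matrix.mulVec_mulVec, ← map_mul, inv_mul_cancel_right, map_mul,
        map_mul, hrt, mul_one]
    refine ⟨fun τ' hτ' => ?_, fun hj => ?_⟩
    · obtain ⟨τ, rfl⟩ : ∃ τ, τ' = x * τ * x⁻¹ := ⟨x⁻¹ * τ' * x, by group⟩
      have hτ := Arith.mem_inertia_smul_iff.1 hτ'
      have h1 : r (x * τ * x⁻¹) = 1 := auxPrime_inertia hW hQ j hA hτ'
      rw [hconj, h1, Matrix.one_mulVec, add_sub_cancel_right, hrx, hline τ hτ]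
    · have hf : (r f).mulVec (φ f) = φ f := hfix f f hVf (hv.line_frob j hj)
      have hft : (r f).mulVec (φ (f * t)) = φ (f * t) := by
        rw [hcoc, hline t ht, Matrix.mulVec_add, hf, hline t ht]
      rw [hconj, Matrix.mulVec_sub, Matrix.mulVec_add, hrx, hft, Matrix.mulVec_mulVec, hsq,
        Matrix.one_mulVec]
      funext i
      simp only [Pi.add_apply, Pi.sub_apply, CharTwo.sub_eq_add]
      ring
  have hsc : IsSelmerClass W hW.Δ_ne_zero Q φ := by
    refine ⟨hcoc, ⟨L, hL, fun σ hσ => hzero σ (hv.zero_Z σ (Or.inl hσ))⟩, ?_, ?_, ?_, ?_⟩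
    · intro l hl h2 hgood hlQ A hA τ hτ
      exact hzero τ (hv.zero_Z τ (Or.inr (Or.inl ⟨l, A, hl, h2, hgood, hlQ, hA, hτ⟩)))
    · intro l hl hdvd A hA τ' hτ'
      obtain ⟨x, hx⟩ := Arith.exists_smul_eq (plc_spec hl) hA hl
      subst hx
      obtain ⟨τ, rfl⟩ : ∃ τ, τ' = x * τ * x⁻¹ := ⟨x⁻¹ * τ' * x, by group⟩
      have hτ := Arith.mem_inertia_smul_iff.1 hτ'
      let i : BadPrime W := ⟨l, hl, hdvd⟩
      obtain ⟨w, hw⟩ : ∃ w, (r τ - 1).mulVec w = φ τ := by
        by_cases h1 : r τ = 1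
        · exact ⟨0, by rw [Matrix.mulVec_zero, hzero τ (hv.zero_inertiaU i τ hτ h1)]⟩
        · have hrτ : r τ = r (gen hW i) :=
            ((curveShape hW hQ L).r_decompU i τ hτ).resolve_left h1
          refine exists_mulVec_eq_of_fixed (rhoBar_sq_inertia hW hl hdvd (plc_spec hl) hτ) h1 ?_
          rw [hrτ]
          exact hfix τ _ ((curveShape hW hQ L).isV_sigma i) (hv.line_decompU i τ hτ)
      refine ⟨(r x).mulVec w - φ x, ?_⟩
      have e : r (x * τ * x⁻¹) * r x = r x * r τ := by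
        rw [← map_mul, ← map_mul, inv_mul_cancel_right]
      rw [hconj, ← hw, Matrix.sub_mulVec, Matrix.one_mulVec, Matrix.mulVec_sub,
        Matrix.mulVec_mulVec, e, ← Matrix.mulVec_mulVec, Matrix.sub_mulVec, Matrix.one_mulVec,
        Matrix.mulVec_sub]
      abel
    · intro q hq A hA σ hσ
      obtain ⟨h1, h2⟩ := hfixJ (some ⟨q, hq⟩) A hA σ hσ
      exact ⟨h2 (Option.some_ne_none _), h1⟩
    · intro A hA σ hσ τ hτ
      exact ⟨(hfixJ none A hA σ hσ).1 τ hτ,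
        fun hp => hzero τ (hv.zero_Z τ (Or.inr (Or.inr ⟨A, hA, hp⟩)))⟩
  obtain ⟨Y, hY⟩ := hsel φ hsc
  by_contra hno
  refine Selmer.not_isPlaneCoboundary_planeOfMat (r := r) hv.isV hno ⟨Y, fun g => ?_⟩
  show φ g = _
  rw [hY, Matrix.sub_mulVec, Matrix.one_mulVec]
  funext i
  exact CharTwo.sub_eq_add _ _

/-- The homomorphisms of the rotations killing the killed elements are the unramified characters
of `GK N`. -/
theorem card_range_le {B : ℕ} (hB : UnramifiedCharBound W.conductorLevel B)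
    (hL : FiniteDimensional ℚ L) (H : Type) [CommGroup H] [Finite H]
    (f : (curveShape hW hQ L).rotations →* H) (h2 : ∀ h, ∃ k, f h ^ 2 ^ k = 1)
    (hk : ∀ h : (curveShape hW hQ L).rotations, (curveShape hW hQ L).IsKilled h → f h = 1) :
    Nat.card f.range ≤ B := by
  have hmem : ∀ σ : GQ, σ ∈ (curveShape hW hQ L).rotations ↔ σ ∈ GK W.conductorLevel := fun σ => by
    rw [← isC_rhoBar_iff hW]
    exact decide_eq_true_iff
  let incl : GK W.conductorLevel →* (curveShape hW hQ L).rotations :=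
    { toFun := fun σ => ⟨σ, (hmem σ).2 σ.2⟩
      map_one' := rfl
      map_mul' := fun _ _ => rfl }
  have hp : IsPGroup 2 f.range := by
    rintro ⟨_, h, rfl⟩
    obtain ⟨k, hk⟩ := h2 h
    exact ⟨k, Subtype.ext hk⟩
  have hle := hB f.range hp (f.rangeRestrict.comp incl) ⟨L, hL, fun σ hσ => Subtype.ext
      (hk _ ⟨1, σ, by simp [incl], Or.inl (Or.inl hσ)⟩)⟩ fun l hl A hA σ hσ => Subtype.ext <|
    hk _ <| by
      obtain ⟨x, hx⟩ := Arith.exists_smul_eq (plc_spec hl) hA hl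
      subst hx
      obtain ⟨s, hs⟩ : ∃ s, (σ : GQ) = x * s * x⁻¹ := ⟨x⁻¹ * σ * x, by group⟩
      rw [hs] at hσ
      have hs' := Arith.mem_inertia_smul_iff.1 hσ
      by_cases hdvd : (l : ℤ) ∣ W.Δ
      · refine ⟨x, s, hs, Or.inr (Or.inl ⟨⟨l, hl, hdvd⟩, hs', ?_⟩)⟩
        have h1 : rhoBar W hW.Δ_ne_zero σ = 1 := (Residual.rhoBar_eq_one_iff W _ _).2
          (Residual.perm_inertia_GK hW.Δ_ne_zero hW hl hA (hs ▸ hσ) σ.2)
        show rhoBar W hW.Δ_ne_zero s = 1
        rw [show s = x⁻¹ * σ * x by rw [hs]; group, map_mul, map_mul, h1, mul_one, ← map_mul,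
          inv_mul_cancel, map_one]
      · by_cases h : l = 2 ∨ l ∈ Q
        · obtain ⟨j, hj⟩ : ∃ j : Option ↥Q, auxPrime j = l := by
            rcases h with rfl | h
            exacts [⟨none, rfl⟩, ⟨some ⟨l, h⟩, rfl⟩]
          exact ⟨x, s, hs, Or.inr (Or.inr ⟨j, show s ∈ (plc (auxPrime j)).inertiaSubgroupIn ℚ by
            rw [hj]; exact hs'⟩)⟩
        · push Not at h
          exact ⟨x, s, hs, Or.inl (Or.inr (Or.inl ⟨l, plc l, hl, h.1, hdvd, h.2, plc_spec hl,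
            hs'⟩))⟩
  rwa [MonoidHom.range_comp, MonoidHom.range_eq_top.2 (fun h : (curveShape hW hQ L).rotations =>
    ⟨⟨h, (hmem h).1 h.2⟩, rfl⟩ : Function.Surjective incl), ← MonoidHom.range_eq_map,
    MonoidHom.range_eq_top.2 f.rangeRestrict_surjective, Subgroup.card_top] at hle

end Fermat.Agent.TwoAdic.Dihedral
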