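import Fermat.Agent.TwoAdic.Residual.Galois
import Fermat.Agent.TwoAdic.Dihedral.Shape
import Fermat.Agent.RT.Assembly.Tame
import Fermat.Agent.Mazur.Eisenstein.Rational
import Mathlib.LinearAlgebra.Dual.Lemmas

/-!
# Inertia of a class C curve for the dihedral lemma

At an odd prime inertia acts through at most two elements in any finite quotient of exponent two;
at a bad prime of a class C curve the nontrivial one is a transposition; at `2` inertia is trivial
on `E[2]` and a Frobenius is a transposition.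
-/

set_option autoImplicit false
set_option linter.style.haveILetI false

noncomputable section

namespace Fermat.Agent.TwoAdic.Dihedral

open Arith (QBar GQ)
open scoped Pointwise

variable {A : ValuationSubring QBar}

/-- An inertia element generating the image of inertia in every finite quotient of exponent two. -/
theorem exists_inertia_involution {l : ℕ} (hl : l.Prime) (hl2 : l ≠ 2) (hA : A.LiesOverPrime l) :
    ∃ σ₀ ∈ A.inertiaSubgroupIn ℚ, ∀ (M : Type) [Monoid M] (ρ : GQ →* M),
      (∃ L : IntermediateField ℚ QBar, FiniteDimensional ℚ L ∧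
        ∀ σ : GQ, (∀ x ∈ L, σ x = x) → ρ σ = 1) →
      (∀ g ∈ A.inertiaSubgroupIn ℚ, ρ g * ρ g = 1) →
      ∀ g ∈ A.inertiaSubgroupIn ℚ, ρ g = 1 ∨ ρ g = ρ σ₀ := by
  classical
  obtain ⟨σ₀, a, π, m, hσ₀, -, -, hπ, hπord, hπσ, hπσp⟩ :=
    RT.Assembly.exists_inertia_uniformiser (p := 2) Nat.prime_two hA hl (by
      obtain ⟨k, hk⟩ := hl.odd_of_ne_two hl2
      exact ⟨k, by omega⟩)
  refine ⟨σ₀, hσ₀, fun M _ ρ ⟨L, hL, hL'⟩ hsq g₀ hg₀ => ?_⟩
  set f : A.inertiaSubgroupIn ℚ →* Mˣ := (ρ.comp (A.inertiaSubgroupIn ℚ).subtype).toHomUnits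
  have hsq' : ∀ x : f.range, x * x = 1 := by
    rintro ⟨_, g, rfl⟩
    exact Subtype.ext (Units.ext (hsq g g.2))
  letI : CommGroup f.range :=
    { (inferInstance : Group f.range) with
      mul_comm := fun x y => by
        have hx : x⁻¹ = x := inv_eq_of_mul_eq_one_right (hsq' x)
        have hy : y⁻¹ = y := inv_eq_of_mul_eq_one_right (hsq' y)
        have hxy : (x * y)⁻¹ = x * y := inv_eq_of_mul_eq_one_right (hsq' (x * y))
        rw [mul_inv_rev, hx, hy] at hxy
        exact hxy.symm }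
  letI : Module (ZMod 2) (Additive f.range) := AddCommGroup.zmodModule fun x => by
    rw [two_nsmul]
    exact congrArg Additive.ofMul (hsq' x.toMul)
  let cls : A.inertiaSubgroupIn ℚ → Additive f.range :=
    fun g => Additive.ofMul (f.rangeRestrict g)
  have hmem : cls ⟨g₀, hg₀⟩ ∈ Submodule.span (ZMod 2) {cls ⟨σ₀, hσ₀⟩} := by
    by_contra hnot
    obtain ⟨φ, hφ, hφ'⟩ := Submodule.exists_le_ker_of_notMem hnot
    let c : GQ → ZMod 2 := fun g =>
      if h : g ∈ A.inertiaSubgroupIn ℚ then φ (cls ⟨g, h⟩) else 0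
    have hc : ∀ g ∈ A.inertiaSubgroupIn ℚ, ∀ h ∈ A.inertiaSubgroupIn ℚ,
        c (g * h) = c g + c h := fun g hg h hh => by
      simp only [c, dif_pos hg, dif_pos hh, dif_pos (mul_mem hg hh), ← map_add]
      refine congrArg φ ?_
      show Additive.ofMul (f.rangeRestrict (⟨g, hg⟩ * ⟨h, hh⟩)) = _
      rw [map_mul]
      rfl
    have hcfin : ∃ L : IntermediateField ℚ QBar, FiniteDimensional ℚ L ∧
        ∀ g : GQ, (∀ x ∈ L, g x = x) → c g = 0 := ⟨L, hL, fun g hg => by
      simp only [c]
      split_ifs with h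
      · have h1 : f.rangeRestrict ⟨g, h⟩ = 1 := Subtype.ext (Units.ext (hL' g hg))
        simp [cls, h1]
      · rfl⟩
    have h0 : c σ₀ = 0 := by
      simp only [c, dif_pos hσ₀]
      exact hφ' (Submodule.mem_span_singleton_self _)
    have := RT.Assembly.eq_zero_of_apply_eq_zero Nat.prime_two hA hl hl2 c hc hcfin hσ₀ hπ hπord
      hπσ hπσp h0 g₀ hg₀
    simp only [c, dif_pos hg₀] at this
    exact hφ this
  obtain ⟨t, ht⟩ := Submodule.mem_span_singleton.1 hmem
  rcases ((show ∀ t : ZMod 2, t = 0 ∨ t = 1 by decide) t) with rfl | rfl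
  · rw [zero_smul] at ht
    exact Or.inl (congrArg (fun x : Additive f.range => ((x.toMul : Mˣ) : M)) ht.symm)
  · rw [one_smul] at ht
    exact Or.inr (congrArg (fun x : Additive f.range => ((x.toMul : Mˣ) : M)) ht.symm)

variable {W : WeierstrassCurve ℤ} (hΔ : W.Δ ≠ 0)

open Residual

/-- The generating inertia element at a bad prime is a transposition of the two-division roots. -/
theorem sign_perm_ne_one (hW : IsClassC W) {l : ℕ} (hl : l.Prime) (hdvd : (l : ℤ) ∣ W.Δ)
    (hA : A.LiesOverPrime l) {σ₀ : GQ}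
    (hgen : ∀ (M : Type) [Monoid M] (ρ : GQ →* M),
      (∃ L : IntermediateField ℚ QBar, FiniteDimensional ℚ L ∧
        ∀ σ : GQ, (∀ x ∈ L, σ x = x) → ρ σ = 1) →
      (∀ g ∈ A.inertiaSubgroupIn ℚ, ρ g * ρ g = 1) →
      ∀ g ∈ A.inertiaSubgroupIn ℚ, ρ g = 1 ∨ ρ g = ρ σ₀) :
    Equiv.Perm.sign (perm W hΔ σ₀) ≠ 1 := by
  intro h0
  have hl2 : l ≠ 2 := by
    rintro rfl
    have := hW.Δ_mod_eight
    omega
  have hd0 : diffProd W hΔ ≠ 0 := diffProd_ne_zero hΔ
  have hfix : ∀ σ ∈ A.inertiaSubgroupIn ℚ, σ (diffProd W hΔ) = diffProd W hΔ := fun σ hσ => by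
    have h := hgen ℤˣ (Equiv.Perm.sign.comp (perm W hΔ))
      ⟨IntermediateField.adjoin ℚ {diffProd W hΔ},
        IntermediateField.adjoin.finiteDimensional (Algebra.IsIntegral.isIntegral _),
        fun g hg => by
          rcases Int.units_eq_one_or (Equiv.Perm.sign (perm W hΔ g)) with e | e
          · exact e
          · have h1 := hg _ (IntermediateField.mem_adjoin_simple_self ℚ (diffProd W hΔ))
            rw [map_diffProd, e] at h1
            simp only [Units.val_neg, Units.val_one, Int.cast_neg, Int.cast_one] at h1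
            exact absurd (by linear_combination (-1 / 2 : QBar) * h1 :
              diffProd W hΔ = 0) hd0⟩
      (fun g _ => Int.units_mul_self _) σ hσ
    have h' : Equiv.Perm.sign (perm W hΔ σ) = 1 := h.elim id (fun e => e.trans h0)
    rw [map_diffProd, h']
    simp
  obtain ⟨k, hk⟩ := Mazur.Eisenstein.exists_int_ordAt hA hl hd0 hfix
  have hn : 256 * W.Δ.natAbs ≠ 0 := by simpa using hΔ
  have h4 : diffProd W hΔ ^ 4 = ((256 * W.Δ.natAbs : ℕ) : QBar) ^ 2 := by
    have e : (256 * (W.Δ.natAbs : ℤ)) ^ 2 = (256 * W.Δ) ^ 2 := by rw [mul_pow, mul_pow, Int.natAbs_sq]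
    rw [← Int.cast_natCast (256 * W.Δ.natAbs), ← Int.cast_pow, Nat.cast_mul, Nat.cast_ofNat, e]
    push_cast
    linear_combination (diffProd W hΔ ^ 2 + 256 * (W.Δ : QBar)) * diffProd_sq W hΔ
  have h := congrArg (Mazur.Eisenstein.ordAt A l) h4
  rw [Mazur.Eisenstein.ordAt_pow hA hl hd0,
    Mazur.Eisenstein.ordAt_pow hA hl (Nat.cast_ne_zero.2 hn),
    Mazur.Eisenstein.ordAt_natCast hA hl hn, hk, Nat.factorization_mul (by norm_num)
      (Int.natAbs_ne_zero.2 hΔ)] at h
  have h256 : (Nat.factorization 256) l = 0 :=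
    Nat.factorization_eq_zero_of_not_dvd fun hd => hl2
      ((Nat.prime_dvd_prime_iff_eq hl Nat.prime_two).1 (hl.dvd_of_dvd_pow (n := 8) hd))
  rw [Finsupp.add_apply, h256, zero_add] at h
  have hv : Odd (W.Δ.natAbs.factorization l) := by
    rw [Nat.factorization_def _ hl]
    exact hW.odd_valuation l hl hdvd
  obtain ⟨j, hj⟩ := hv
  rw [hj] at h
  push_cast at h
  have h' : (4 : ℤ) * k = 2 * (2 * (j : ℤ) + 1) := Int.cast_injective (α := ℚ) (by
    push_cast
    linear_combination h)
  omega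

/-- At `2` inertia fixes `√-N` and a Frobenius does not. -/
theorem sqrtNeg_two (hW : IsClassC W) (hA : A.LiesOverPrime 2) :
    (∀ τ ∈ A.inertiaSubgroupIn ℚ, τ ∈ GK W.conductorLevel) ∧
      ∀ σ : GQ, A.IsFrobeniusAt σ 2 → σ ∉ GK W.conductorLevel := by
  set N := W.conductorLevel
  set s := sqrtNeg N
  obtain ⟨t, ht⟩ : ∃ t, N = 8 * t + 3 := ⟨N / 8, by
    have := conductorLevel_mod_eight hW
    omega⟩
  set w : QBar := (1 + s) / 2 with hw
  have hs : 2 * w - 1 = s := by rw [hw]; ring
  have hpoly : w * w - w = ((-(2 * (t : ℤ) + 1) : ℤ) : QBar) := by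
    have h := sq_sqrtNeg N
    have hN : (N : QBar) = 8 * (t : QBar) + 3 := by exact_mod_cast ht
    rw [hw]
    push_cast
    linear_combination (1 / 4 : QBar) * h - (1 / 4 : QBar) * hN
  have hwA : w ∈ A := Arith.mem_of_isIntegral A
    ⟨Polynomial.X ^ 2 - Polynomial.X + Polynomial.C (2 * (t : ℤ) + 1), by monicity!, by
      show Polynomial.aeval w _ = 0
      simp only [map_add, map_sub, map_pow, Polynomial.aeval_X, eq_intCast]
      push_cast at hpoly ⊢
      simp only [map_mul, map_ofNat, map_natCast, map_one]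
      linear_combination hpoly⟩
  have hunit : w * w - w ∉ A.nonunits := by
    rw [hpoly]
    intro h
    have := (Arith.intCast_mem_nonunits_iff hA Nat.prime_two _).mp h
    omega
  have h2w : 2 * w ∈ A.nonunits := Arith.nonunits_mul_right
    (by exact_mod_cast (Arith.intCast_mem_nonunits_iff hA Nat.prime_two 2).mpr (by norm_num)) hwA
  have hcases : ∀ σ : GQ, σ s = s ∨ σ w - w = 1 - 2 * w := fun σ => by
    have h : σ s * σ s = s * s := by
      rw [← map_mul, ← sq, sq_sqrtNeg, map_neg, map_natCast]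
    rcases mul_self_eq_mul_self_iff.1 h with e | e
    · exact Or.inl e
    · refine Or.inr ?_
      rw [hw, map_div₀, map_add, map_one, map_ofNat, e]
      ring
  refine ⟨fun τ hτ => (hcases τ).elim id fun e => ?_, fun σ hσ hK => ?_⟩
  · exfalso
    have h := (Arith.mem_inertia_iff_forall_mem.1 hτ).2 w hwA
    rw [e] at h
    have := Arith.nonunits_add h h2w
    rw [sub_add_cancel] at this
    exact Arith.one_notMem_nonunits this
  · have hfix : σ s = s := hK
    have hσw : σ w = w := by rw [hw, map_div₀, map_add, map_one, map_ofNat, hfix]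
    have h := (Arith.isFrobeniusAt_iff_forall_mem.1 hσ).2 w hwA
    rw [hσw, pow_two] at h
    exact hunit (by simpa using Arith.nonunits_neg h)

end Fermat.Agent.TwoAdic.Dihedral
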