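import Fermat.Agent.TwoAdic.Dihedral.Step
import Mathlib.Algebra.CharP.Basic
import Mathlib.Data.Fintype.EquivFin
import Mathlib.LinearAlgebra.Matrix.NonsingularInverse
import Mathlib.RingTheory.Ideal.Quotient.Operations

/-!
# The dihedral lemma

If all Selmer cocycles are coboundaries, a representation of the given shape is conjugate to a
dihedral one, by a matrix congruent to one.
-/

set_option autoImplicit false

namespace Fermat.Agent.TwoAdic.Dihedral

universe u v

variable {G : Type u} [Group G] {sh : Shape G}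

theorem exists_socle {A : Type v} [CommRing A] [Finite A] (R : Rep sh A)
    (h : ∃ x, x ≠ 0 ∧ R.res x = 0) :
    ∃ ε, ε ≠ 0 ∧ R.res ε = 0 ∧ ∀ y, R.res y = 0 → ε * y = 0 := by
  obtain ⟨x₀, hx₀⟩ := h
  have : Nonempty {x : A // x ≠ 0 ∧ R.res x = 0} := ⟨⟨x₀, hx₀⟩⟩
  obtain ⟨⟨ε, hε0, hεr⟩, hmin⟩ := Finite.exists_min
    fun x : {x : A // x ≠ 0 ∧ R.res x = 0} => (Set.range fun z => (x : A) * z).ncard
  refine ⟨ε, hε0, hεr, fun y hy => ?_⟩
  by_contra hne
  have hlt : (Set.range fun z => ε * y * z).ncard < (Set.range fun z => ε * z).ncard := by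
    refine Set.ncard_lt_ncard ⟨?_, fun hsub => ?_⟩ (Set.toFinite _)
    · rintro _ ⟨z, rfl⟩
      exact ⟨y * z, (mul_assoc _ _ _).symm⟩
    · obtain ⟨z, hz⟩ := hsub ⟨1, rfl⟩
      have hu : IsUnit (1 - y * z) := R.isUnit_of_res_ne_zero (by
        rw [map_sub, map_one, map_mul, hy, zero_mul, sub_zero]; exact one_ne_zero)
      have : ε * (1 - y * z) = 0 := by
        simp only [mul_one] at hz
        rw [mul_sub, mul_one, ← mul_assoc, hz, sub_self]
      exact hε0 (hu.mul_left_eq_zero.1 this)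
  exact absurd hlt (hmin ⟨ε * y, hne, by rw [map_mul, hεr, zero_mul]⟩).not_gt

theorem exists_smul_of_map_eq_zero {A : Type v} [CommRing A] (ε : A) {X : M2 A}
    (h : (Ideal.Quotient.mk (Ideal.span {ε})).mapMatrix X = 0) : ∃ W : M2 A, X = ε • W := by
  have h' : ∀ i j, ∃ w, X i j = ε * w := fun i j => by
    have : (Ideal.Quotient.mk (Ideal.span {ε})) (X i j) = 0 := congrFun (congrFun h i) j
    exact Ideal.mem_span_singleton.1 (Ideal.Quotient.eq_zero_iff_mem.1 this)
  choose w hw using h'
  exact ⟨Matrix.of w, by ext i j; simp [hw]⟩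

theorem Rep.exists_dihedral_aux (hsel : sh.NoSelmer) (n : ℕ) :
    ∀ (A : Type v) [CommRing A] [Finite A] [CharP A 2] (R : Rep sh A), Nat.card A = n →
      ∃ P : (M2 A)ˣ, ∃ hP : (P : M2 A).map R.res = 1, sh.IsDihedral (R.conj P hP).rho := by
  induction n using Nat.strong_induction_on with
  | h n ih =>
  intro A _ _ _ R hn
  by_cases hex : ∃ x, x ≠ 0 ∧ R.res x = 0
  · obtain ⟨ε, hε0, hεr, hεm⟩ := exists_socle R hex
    let mk : A →+* A ⧸ Ideal.span {ε} := Ideal.Quotient.mk _
    have hker : ∀ x ∈ Ideal.span {ε}, R.res x = 0 := fun x hx => by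
      obtain ⟨a, rfl⟩ := Ideal.mem_span_singleton'.1 hx
      rw [map_mul, hεr, mul_zero]
    let res' : (A ⧸ Ideal.span {ε}) →+* ZMod 2 := Ideal.Quotient.lift _ R.res hker
    have hres : ∀ x, res' (mk x) = R.res x := fun x => Ideal.Quotient.lift_mk _ _ _
    have hnilp : ∀ y, res' y = 0 → IsNilpotent y := fun y hy => by
      obtain ⟨x, rfl⟩ := Ideal.Quotient.mk_surjective y
      exact (R.nilp x (by rwa [← hres])).map mk
    have : Finite (A ⧸ Ideal.span {ε}) := Finite.of_surjective _ Ideal.Quotient.mk_surjective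
    have : Nontrivial (A ⧸ Ideal.span {ε}) := res'.domain_nontrivial
    have : CharP (A ⧸ Ideal.span {ε}) 2 := CharTwo.of_one_ne_zero_of_two_eq_zero one_ne_zero
      (by rw [← map_ofNat mk 2, CharTwo.two_eq_zero (R := A), map_zero])
    have hlt : Nat.card (A ⧸ Ideal.span {ε}) < n := by
      have := Fintype.ofFinite A
      have := Fintype.ofFinite (A ⧸ Ideal.span {ε})
      rw [← hn, Nat.card_eq_fintype_card, Nat.card_eq_fintype_card]
      refine Fintype.card_lt_of_surjective_not_injective _ Ideal.Quotient.mk_surjective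
        fun hinj => hε0 (hinj ?_)
      rw [map_zero, Ideal.Quotient.eq_zero_iff_mem]
      exact Ideal.mem_span_singleton_self ε
    obtain ⟨P', hP', hdih⟩ := ih _ hlt _ (R.map mk res' hres hnilp) rfl
    have hsurj : ∀ i j, ∃ x, mk x = (P' : M2 (A ⧸ Ideal.span {ε})) i j := fun i j =>
      Ideal.Quotient.mk_surjective _
    choose X hX using hsurj
    have hXm : mk.mapMatrix (Matrix.of X) = (P' : M2 (A ⧸ Ideal.span {ε})) := by
      ext i j; exact hX i j
    have hXr : R.res.mapMatrix (Matrix.of X) = 1 := by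
      rw [← hP']
      ext i j
      change R.res (X i j) = res' ((P' : M2 (A ⧸ Ideal.span {ε})) i j)
      rw [← hres, hX]
    have hXu : IsUnit (Matrix.of X) := (Matrix.isUnit_iff_isUnit_det _).2
      (R.isUnit_of_res_ne_zero (by rw [RingHom.map_det, hXr, Matrix.det_one]; exact one_ne_zero))
    have hP : ((hXu.unit : (M2 A)ˣ) : M2 A).map R.res = 1 := hXr
    have hmk : ∀ g, mk.mapMatrix ((R.conj hXu.unit hP).rho g) =
        ((R.map mk res' hres hnilp).conj P' hP').rho g := fun g => by
      have hinv : mk.mapMatrix ((hXu.unit⁻¹ : (M2 A)ˣ) : M2 A) =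
          ((P'⁻¹ : (M2 (A ⧸ Ideal.span {ε}))ˣ) : M2 (A ⧸ Ideal.span {ε})) := by
        rw [eq_comm]
        refine Units.inv_eq_of_mul_eq_one_right ?_
        rw [← hXm, ← map_mul]
        exact (congrArg mk.mapMatrix hXu.unit.mul_inv).trans (map_one _)
      change mk.mapMatrix (_ * R.rho g * _) = (P' : M2 _) * mk.mapMatrix (R.rho g) * _
      rw [map_mul, map_mul, hinv, IsUnit.unit_spec, hXm]
    obtain ⟨P₂, hP₂, hd⟩ := (R.conj hXu.unit hP).step hsel ε hε0 hεr hεm
      (fun g => exists_smul_of_map_eq_zero ε (by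
        rw [← part_map, hmk]
        refine (IsPar.part_eq ?_).2
        rcases sh.isC_or_isV g with h | h
        · rw [sh.par_eq_true h]; exact hdih.isC g h
        · rw [sh.par_eq_false h]; exact hdih.isV g h))
      (fun j g hg => exists_smul_of_map_eq_zero ε (by
        rw [map_sub, map_one, hmk, hdih.inertia j g hg, sub_self]))
    have hP₂' : R.res.mapMatrix (P₂ : M2 A) = 1 := hP₂
    refine ⟨P₂ * hXu.unit, ?_, ?_⟩
    · change R.res.mapMatrix ((P₂ * hXu.unit : (M2 A)ˣ) : M2 A) = 1
      rw [Units.val_mul, map_mul, hP₂', IsUnit.unit_spec, hXr, one_mul]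
    · convert hd using 1
      funext g
      change ((P₂ * hXu.unit : (M2 A)ˣ) : M2 A) * R.rho g * _ = _
      rw [mul_inv_rev, Units.val_mul, Units.val_mul]
      simp only [Rep.conj, MonoidHom.coe_mk, OneHom.coe_mk, mul_assoc]
  · push Not at hex
    have hinj : Function.Injective (R.res.mapMatrix (m := Fin 2)) := fun X Y h => by
      ext i j
      refine sub_eq_zero.1 (by_contra fun hne => hex _ hne ?_)
      rw [map_sub, sub_eq_zero]
      exact congrFun (congrFun h i) j
    refine ⟨1, by simp, ?_⟩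
    have he : ∀ g, R.rho g = liftM A (sh.r g) := fun g =>
      hinj (by rw [mapMatrix_liftM]; exact R.res_rho g)
    refine ⟨fun g hg => ?_, fun g hg => ?_, fun j g hg => ?_⟩
    · simp only [Rep.conj, MonoidHom.coe_mk, OneHom.coe_mk, Units.val_one, inv_one, one_mul,
        mul_one, he]
      exact IsC.map hg _
    · simp only [Rep.conj, MonoidHom.coe_mk, OneHom.coe_mk, Units.val_one, inv_one, one_mul,
        mul_one, he]
      exact IsV.map hg _
    · simp only [Rep.conj, MonoidHom.coe_mk, OneHom.coe_mk, Units.val_one, inv_one, one_mul,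
        mul_one, he, sh.r_inertia j g hg, map_one]

/-- The dihedral lemma. -/
theorem Rep.exists_dihedral {A : Type v} [CommRing A] [Finite A] [CharP A 2] (R : Rep sh A)
    (hsel : sh.NoSelmer) :
    ∃ P : (M2 A)ˣ, ∃ hP : (P : M2 A).map R.res = 1, sh.IsDihedral (R.conj P hP).rho :=
  Rep.exists_dihedral_aux hsel _ A R rfl

end Fermat.Agent.TwoAdic.Dihedral
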