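import Mathlib.LinearAlgebra.Matrix.Determinant.Basic
import Mathlib.LinearAlgebra.Matrix.Notation
import Mathlib.LinearAlgebra.Matrix.Trace
import Mathlib.Algebra.CharP.Two
import Mathlib.Algebra.CharP.Basic
import Mathlib.LinearAlgebra.Matrix.CharP
import Mathlib.Data.ZMod.Basic
import Mathlib.Data.Matrix.Basic

/-!
# Two by two matrices in characteristic two

`M₂(A)` is the sum of the commutant `A + A w₀` of `w₀ = !![0, 1; 1, 1]` and of the matrices `X`
with `X w₀ = w₀² X`.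
-/

set_option autoImplicit false

namespace Fermat.Agent.TwoAdic.Dihedral

/-- Two by two matrices. -/
abbrev M2 (A : Type*) := Matrix (Fin 2) (Fin 2) A

variable {A B : Type*} [CommRing A] [CommRing B]

/-- The element `a + b w₀`. -/
def cMat (a b : A) : M2 A := !![a, b; b, a + b]

/-- The general element of the complement. -/
def vMat (a c : A) : M2 A := !![a, a + c; c, a]

/-- Membership of the commutant of `w₀`. -/
def IsC (X : M2 A) : Prop := X 1 0 = X 0 1 ∧ X 1 1 = X 0 0 + X 0 1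

/-- Membership of the complement. -/
def IsV (X : M2 A) : Prop := X 1 1 = X 0 0 ∧ X 0 1 = X 0 0 + X 1 0

instance [DecidableEq A] : DecidablePred (IsC (A := A)) := fun _ => inferInstanceAs (Decidable (_ ∧ _))

instance [DecidableEq A] : DecidablePred (IsV (A := A)) := fun _ => inferInstanceAs (Decidable (_ ∧ _))

theorem IsC.eq_cMat {X : M2 A} (h : IsC X) : X = cMat (X 0 0) (X 0 1) := by
  obtain ⟨h₁, h₂⟩ := h
  ext i j; fin_cases i <;> fin_cases j <;> simp [cMat, h₁, h₂]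

theorem IsV.eq_vMat {X : M2 A} (h : IsV X) : X = vMat (X 0 0) (X 1 0) := by
  obtain ⟨h₁, h₂⟩ := h
  ext i j; fin_cases i <;> fin_cases j <;> simp [vMat, h₁, h₂]

theorem isC_cMat (a b : A) : IsC (cMat a b) := by simp [IsC, cMat]

theorem isV_vMat (a c : A) : IsV (vMat a c) := by simp [IsV, vMat]

theorem isC_one : IsC (1 : M2 A) := by simp [IsC]

theorem isC_zero : IsC (0 : M2 A) := by simp [IsC]

theorem isV_zero : IsV (0 : M2 A) := by simp [IsV]

theorem IsC.add {X Y : M2 A} (hX : IsC X) (hY : IsC Y) : IsC (X + Y) := by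
  simp only [IsC, Matrix.add_apply] at *
  exact ⟨by rw [hX.1, hY.1], by rw [hX.2, hY.2]; ring⟩

theorem IsV.add {X Y : M2 A} (hX : IsV X) (hY : IsV Y) : IsV (X + Y) := by
  simp only [IsV, Matrix.add_apply] at *
  exact ⟨by rw [hX.1, hY.1], by rw [hX.2, hY.2]; ring⟩

theorem IsC.smul {X : M2 A} (t : A) (hX : IsC X) : IsC (t • X) := by
  simp only [IsC, Matrix.smul_apply, smul_eq_mul] at *
  exact ⟨by rw [hX.1], by rw [hX.2]; ring⟩

theorem IsV.smul {X : M2 A} (t : A) (hX : IsV X) : IsV (t • X) := by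
  simp only [IsV, Matrix.smul_apply, smul_eq_mul] at *
  exact ⟨by rw [hX.1], by rw [hX.2]; ring⟩

theorem IsC.map {X : M2 A} (hX : IsC X) (f : A →+* B) : IsC (X.map f) := by
  simp only [IsC, Matrix.map_apply] at *
  exact ⟨by rw [hX.1], by rw [hX.2, map_add]⟩

theorem IsV.map {X : M2 A} (hX : IsV X) (f : A →+* B) : IsV (X.map f) := by
  simp only [IsV, Matrix.map_apply] at *
  exact ⟨by rw [hX.1], by rw [hX.2, map_add]⟩

variable [CharP A 2]

theorem cMat_mul_cMat (a b a' b' : A) :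
    cMat a b * cMat a' b' = cMat (a * a' + b * b') (a * b' + b * a' + b * b') := by
  simp only [cMat, Matrix.mul_fin_two]
  ext i j; fin_cases i <;> fin_cases j <;>
    simp <;> grind

theorem cMat_mul_vMat (a b a' c' : A) :
    cMat a b * vMat a' c' = vMat (a * a' + b * c') (b * a' + (a + b) * c') := by
  simp only [cMat, vMat, Matrix.mul_fin_two]
  ext i j; fin_cases i <;> fin_cases j <;>
    simp <;> grind

theorem IsC.mul {X Y : M2 A} (hX : IsC X) (hY : IsC Y) : IsC (X * Y) := by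
  rw [hX.eq_cMat, hY.eq_cMat, cMat_mul_cMat]; exact isC_cMat _ _

theorem IsC.mul_comm {X Y : M2 A} (hX : IsC X) (hY : IsC Y) : X * Y = Y * X := by
  rw [hX.eq_cMat, hY.eq_cMat, cMat_mul_cMat, cMat_mul_cMat]
  congr 1 <;> ring

theorem IsC.mul_isV {X Y : M2 A} (hX : IsC X) (hY : IsV Y) : IsV (X * Y) := by
  rw [hX.eq_cMat, hY.eq_vMat, cMat_mul_vMat]; exact isV_vMat _ _

theorem IsV.mul_isC {X Y : M2 A} (hX : IsV X) (hY : IsC Y) : IsV (X * Y) := by
  obtain ⟨h₁, h₂⟩ := hX
  obtain ⟨h₃, h₄⟩ := hY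
  simp only [IsV, Matrix.mul_apply, Fin.sum_univ_two, h₁, h₂, h₃, h₄]
  constructor <;> grind

theorem IsV.mul {X Y : M2 A} (hX : IsV X) (hY : IsV Y) : IsC (X * Y) := by
  obtain ⟨h₁, h₂⟩ := hX
  obtain ⟨h₃, h₄⟩ := hY
  simp only [IsC, Matrix.mul_apply, Fin.sum_univ_two, h₁, h₂, h₃, h₄]
  constructor <;> grind

theorem IsV.trace_eq_zero {X : M2 A} (hX : IsV X) : X.trace = 0 := by
  rw [Matrix.trace_fin_two, hX.1, CharTwo.add_self_eq_zero]

theorem IsC.trace_eq {X : M2 A} (hX : IsC X) : X.trace = X 0 1 := by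
  rw [Matrix.trace_fin_two, hX.2, ← add_assoc, CharTwo.add_self_eq_zero, zero_add]

/-- The component in the commutant of `w₀`. -/
def cPart (X : M2 A) : M2 A := cMat (X 0 0 + X 0 1 + X 1 0) (X 0 0 + X 1 1)

/-- The component in the complement. -/
def vPart (X : M2 A) : M2 A := vMat (X 0 1 + X 1 0) (X 1 0 + X 0 0 + X 1 1)

theorem cPart_add_vPart (X : M2 A) : cPart X + vPart X = X := by
  ext i j; fin_cases i <;> fin_cases j <;> simp [cPart, vPart, cMat, vMat] <;> grind

omit [CharP A 2] in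
theorem isC_cPart (X : M2 A) : IsC (cPart X) := isC_cMat _ _

omit [CharP A 2] in
theorem isV_vPart (X : M2 A) : IsV (vPart X) := isV_vMat _ _

theorem eq_zero_of_isC_of_isV {X : M2 A} (hC : IsC X) (hV : IsV X) : X = 0 := by
  obtain ⟨h₁, h₂⟩ := hC
  obtain ⟨h₃, h₄⟩ := hV
  have hb : X 0 1 = 0 := by grind
  ext i j; fin_cases i <;> fin_cases j <;> simp <;> grind

theorem IsC.eq_of_add_eq {X X' Y Y' : M2 A} (hX : IsC X) (hX' : IsC X') (hY : IsV Y) (hY' : IsV Y')
    (h : X + Y = X' + Y') : X = X' ∧ Y = Y' := by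
  have key : X - X' = Y' - Y := by
    rw [sub_eq_sub_iff_add_eq_add, h, add_comm]
  have hXX : IsC (X - X') := by rw [CharTwo.sub_eq_add]; exact hX.add hX'
  have hYY : IsV (X - X') := by rw [key, CharTwo.sub_eq_add]; exact hY'.add hY
  have hz := eq_zero_of_isC_of_isV hXX hYY
  exact ⟨sub_eq_zero.1 hz, (sub_eq_zero.1 (key ▸ hz)).symm⟩

end Fermat.Agent.TwoAdic.Dihedral
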