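import Fermat.Agent.TwoAdic.Dihedral.Shape

/-!
# Parity of matrices in characteristic two

`IsPar true` is the commutant of `w₀`, `IsPar false` the complement; parities multiply like signs.
-/

set_option autoImplicit false

namespace Fermat.Agent.TwoAdic.Dihedral

universe u

variable {A B : Type*} [CommRing A] [CommRing B]

/-- `true` for the commutant of `w₀`, `false` for the complement. -/
def IsPar : Bool → M2 A → Prop
  | true => IsC
  | false => IsV

/-- The component of the given parity. -/
def part : Bool → M2 A → M2 A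
  | true => cPart
  | false => vPart

theorem isPar_zero : ∀ b, IsPar b (0 : M2 A)
  | true => isC_zero
  | false => isV_zero

theorem IsPar.add {b : Bool} {X Y : M2 A} (hX : IsPar b X) (hY : IsPar b Y) : IsPar b (X + Y) := by
  cases b
  · exact IsV.add hX hY
  · exact IsC.add hX hY

theorem IsPar.smul {b : Bool} {X : M2 A} (t : A) (hX : IsPar b X) : IsPar b (t • X) := by
  cases b
  · exact IsV.smul t hX
  · exact IsC.smul t hX

theorem IsPar.map {b : Bool} {X : M2 A} (hX : IsPar b X) (f : A →+* B) :
    IsPar b (f.mapMatrix X) := by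
  cases b
  · exact IsV.map hX f
  · exact IsC.map hX f

theorem isPar_part : ∀ (b : Bool) (X : M2 A), IsPar b (part b X)
  | true, X => isC_cPart X
  | false, X => isV_vPart X

theorem part_map (f : A →+* B) : ∀ (b : Bool) (X : M2 A),
    part b (f.mapMatrix X) = f.mapMatrix (part b X) := by
  intro b X
  cases b <;> ext i j <;> fin_cases i <;> fin_cases j <;> simp [part, cPart, vPart, cMat, vMat]

theorem part_smul (t : A) : ∀ (b : Bool) (X : M2 A), part b (t • X) = t • part b X := by
  intro b X
  cases b <;> ext i j <;> fin_cases i <;> fin_cases j <;>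
    simp [part, cPart, vPart, cMat, vMat] <;> ring

theorem part_zero : ∀ b, part b (0 : M2 A) = 0 := by
  intro b
  simpa using part_smul (0 : A) b 0

variable [CharP A 2]

theorem IsPar.mul : ∀ {b c : Bool} {X Y : M2 A}, IsPar b X → IsPar c Y → IsPar (b == c) (X * Y)
  | true, true, _, _, hX, hY => IsC.mul hX hY
  | true, false, _, _, hX, hY => IsC.mul_isV hX hY
  | false, true, _, _, hX, hY => IsV.mul_isC hX hY
  | false, false, _, _, hX, hY => IsV.mul hX hY

theorem part_add_part (X : M2 A) : ∀ b, part b X + part (!b) X = X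
  | true => cPart_add_vPart X
  | false => (add_comm _ _).trans (cPart_add_vPart X)

theorem IsPar.eq_of_add_eq {b : Bool} {X X' Y Y' : M2 A} (hX : IsPar b X) (hX' : IsPar b X')
    (hY : IsPar (!b) Y) (hY' : IsPar (!b) Y') (h : X + Y = X' + Y') : X = X' ∧ Y = Y' := by
  cases b
  · exact (IsC.eq_of_add_eq hY hY' hX hX' (by rw [add_comm Y, add_comm Y', h])).symm
  · exact IsC.eq_of_add_eq hX hX' hY hY' h

theorem IsPar.part_eq {b : Bool} {X : M2 A} (hX : IsPar b X) : part b X = X ∧ part (!b) X = 0 :=
  (isPar_part b X).eq_of_add_eq hX (isPar_part (!b) X) (isPar_zero _)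
    (by rw [part_add_part, add_zero])

theorem IsPar.eq_zero {b : Bool} {X : M2 A} (hX : IsPar b X) (hX' : IsPar (!b) X) : X = 0 := by
  cases b
  · exact eq_zero_of_isC_of_isV hX' hX
  · exact eq_zero_of_isC_of_isV hX hX'

theorem isPar_of_part_not_eq_zero {b : Bool} {X : M2 A} (h : part (!b) X = 0) : IsPar b X := by
  have := part_add_part X b
  rw [h, add_zero] at this
  rw [← this]
  exact isPar_part b X

section Shape

variable {G : Type u} [Group G] (sh : Shape G)

/-- The parity of `r g`. -/
def Shape.par (g : G) : Bool := decide (IsC (sh.r g))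

theorem Shape.par_eq_true {g : G} (h : IsC (sh.r g)) : sh.par g = true := decide_eq_true h

theorem Shape.par_eq_false {g : G} (h : IsV (sh.r g)) : sh.par g = false :=
  decide_eq_false (sh.not_isC_of_isV h)

theorem Shape.isPar_r (g : G) : IsPar (sh.par g) (sh.r g) := by
  rcases sh.isC_or_isV g with h | h
  · rw [sh.par_eq_true h]; exact h
  · rw [sh.par_eq_false h]; exact h

theorem Shape.par_eq_of_isPar {g : G} {b : Bool} (h : IsPar b (sh.r g)) : sh.par g = b := by
  cases b
  · exact sh.par_eq_false h
  · exact sh.par_eq_true h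

theorem Shape.par_mul (g h : G) : sh.par (g * h) = (sh.par g == sh.par h) :=
  sh.par_eq_of_isPar <| by rw [map_mul]; exact (sh.isPar_r g).mul (sh.isPar_r h)

theorem Shape.par_one : sh.par 1 = true :=
  sh.par_eq_true <| by rw [map_one]; exact isC_one

theorem Shape.par_inv (g : G) : sh.par g⁻¹ = sh.par g := by
  have h := sh.par_mul g g⁻¹
  rw [mul_inv_cancel, sh.par_one] at h
  revert h
  cases sh.par g <;> cases sh.par g⁻¹ <;> simp

end Shape

end Fermat.Agent.TwoAdic.Dihedral
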