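import Fermat.Agent.TwoAdic.Dihedral.Parity

/-!
# Facts about two by two matrices over `𝔽₂`
-/

set_option autoImplicit false

namespace Fermat.Agent.TwoAdic.Dihedral

theorem line_of_trace : ∀ a c a' c' : ZMod 2, (vMat a' c' : M2 (ZMod 2)) ≠ 0 →
    (vMat a c * vMat a' c').trace = 0 → vMat a c = 0 ∨ vMat a c = vMat a' c' := by
  decide

theorem line_of_commute : ∀ a c a' c' : ZMod 2, (vMat a' c' : M2 (ZMod 2)) ≠ 0 →
    vMat a c * vMat a' c' = vMat a' c' * vMat a c → vMat a c = 0 ∨ vMat a c = vMat a' c' := by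
  decide

theorem sq_eq_one : ∀ a c : ZMod 2, (vMat a c : M2 (ZMod 2)) ≠ 0 → vMat a c * vMat a c = 1 := by
  decide

theorem line_of_inertia : ∀ p q s t a' c' : ZMod 2, (vMat a' c' : M2 (ZMod 2)) ≠ 0 →
    (!![p, q; s, t] : M2 (ZMod 2)).trace = 0 →
    (!![p, q; s, t] : M2 (ZMod 2)) * (vMat a' c' + 1) = 0 →
    (vPart !![p, q; s, t] = 0 ∨ vPart !![p, q; s, t] = vMat a' c') ∧
      (vPart (!![p, q; s, t] : M2 (ZMod 2)) = 0 → (!![p, q; s, t] : M2 (ZMod 2)) = 0) := by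
  decide

theorem IsV.line_of_trace {v u : M2 (ZMod 2)} (hv : IsV v) (hu : IsV u) (hu0 : u ≠ 0)
    (h : (v * u).trace = 0) : v = 0 ∨ v = u := by
  rw [hv.eq_vMat, hu.eq_vMat] at *
  exact Dihedral.line_of_trace _ _ _ _ hu0 h

theorem IsV.line_of_commute {v u : M2 (ZMod 2)} (hv : IsV v) (hu : IsV u) (hu0 : u ≠ 0)
    (h : v * u = u * v) : v = 0 ∨ v = u := by
  rw [hv.eq_vMat, hu.eq_vMat] at *
  exact Dihedral.line_of_commute _ _ _ _ hu0 h

theorem IsV.sq_eq_one {u : M2 (ZMod 2)} (hu : IsV u) (hu0 : u ≠ 0) : u * u = 1 := by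
  rw [hu.eq_vMat] at *
  exact Dihedral.sq_eq_one _ _ hu0

theorem IsV.line_of_inertia {W u : M2 (ZMod 2)} (hu : IsV u) (hu0 : u ≠ 0) (htr : W.trace = 0)
    (h : W * (u + 1) = 0) : (vPart W = 0 ∨ vPart W = u) ∧ (vPart W = 0 → W = 0) := by
  rw [hu.eq_vMat] at *
  rw [Matrix.eta_fin_two W] at *
  exact Dihedral.line_of_inertia _ _ _ _ _ _ hu0 htr h

end Fermat.Agent.TwoAdic.Dihedral
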