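import Fermat.Agent.TwoAdic.Dihedral.Residual
import Mathlib.Tactic.Abel
import Mathlib.Tactic.LinearCombination

/-!
# One step of the dihedral lemma

If a representation is dihedral modulo an element `ε` killed by the maximal ideal, the defect is a
Selmer cocycle; when all those are coboundaries a conjugation by `1 + ε Y` removes it.
-/

set_option autoImplicit false

namespace Fermat.Agent.TwoAdic.Dihedral

universe u v

theorem part_add {A : Type*} [CommRing A] (b : Bool) (X Y : M2 A) :
    part b (X + Y) = part b X + part b Y := by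
  cases b <;> ext i j <;> fin_cases i <;> fin_cases j <;>
    simp [part, cPart, vPart, cMat, vMat] <;> ring

/-- Lift matrices over `𝔽₂`. -/
def liftM (A : Type*) [CommRing A] [CharP A 2] : M2 (ZMod 2) →+* M2 A :=
  (ZMod.castHom (dvd_refl 2) A).mapMatrix

theorem mapMatrix_liftM {A : Type*} [CommRing A] [CharP A 2] (res : A →+* ZMod 2)
    (X : M2 (ZMod 2)) : res.mapMatrix (liftM A X) = X := by
  ext i j
  exact RingHom.congr_fun (Subsingleton.elim (res.comp (ZMod.castHom (dvd_refl 2) A))
    (RingHom.id _)) (X i j)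

variable {G : Type u} [Group G] {sh : Shape G} {A : Type v} [CommRing A]

theorem Rep.res_unit (R : Rep sh A) (x : Aˣ) : R.res x = 1 := by
  have h : IsUnit (R.res (x : A)) := x.isUnit.map R.res
  revert h
  generalize R.res (x : A) = y
  intro h
  have := h.ne_zero
  revert this; revert y; decide

theorem mapMatrix_smul_eq (res : A →+* ZMod 2) (t : A) (X : M2 A) :
    res.mapMatrix (t • X) = res t • res.mapMatrix X := by
  ext i j; simp

variable [CharP A 2]

theorem Rep.step (R : Rep sh A) (hsel : sh.NoSelmer) (ε : A) (hε0 : ε ≠ 0)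
    (hεr : R.res ε = 0) (hεm : ∀ y, R.res y = 0 → ε * y = 0)
    (hnear : ∀ g, ∃ W, part (!sh.par g) (R.rho g) = ε • W)
    (hI : ∀ j, ∀ g ∈ sh.inertia j, ∃ W, R.rho g - 1 = ε • W) :
    ∃ P : (M2 A)ˣ, (P : M2 A).map R.res = 1 ∧
      sh.IsDihedral fun g => (P : M2 A) * R.rho g * ((P⁻¹ : (M2 A)ˣ) : M2 A) := by
  set rm := R.res.mapMatrix (m := Fin 2) with hrm
  have hεε : ε * ε = 0 := hεm ε hεr
  have hscal : ∀ x, ε * x = 0 → R.res x = 0 := fun x hx => by
    by_contra h
    exact hε0 ((R.isUnit_of_res_ne_zero h).mul_left_eq_zero.1 hx)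
  have heq : ∀ X Y : M2 A, rm X = rm Y → ε • X = ε • Y := fun X Y h => by
    ext i j
    have h' : R.res (X i j - Y i j) = 0 := by
      rw [map_sub, sub_eq_zero]; exact congrFun (congrFun h i) j
    simpa [mul_sub, sub_eq_zero] using hεm _ h'
  have hinj : ∀ X Y : M2 A, ε • X = ε • Y → rm X = rm Y := fun X Y h => by
    ext i j
    have h' : ε * (X i j - Y i j) = 0 := by
      rw [mul_sub, sub_eq_zero]; exact congrFun (congrFun h i) j
    simpa [hrm, sub_eq_zero] using hscal _ h'
  have hinj' : ∀ X Y : M2 (ZMod 2), ε • liftM A X = ε • liftM A Y → X = Y := fun X Y h => by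
    have := hinj _ _ h
    rwa [mapMatrix_liftM, mapMatrix_liftM] at this
  have hlift : ∀ X : M2 A, ε • liftM A (rm X) = ε • X := fun X =>
    heq _ _ (mapMatrix_liftM _ _)
  have hex : ∀ g, ∃ X, part (!sh.par g) (R.rho g) = ε • liftM A X := fun g => by
    obtain ⟨W, hW⟩ := hnear g
    exact ⟨rm W, by rw [hlift, hW]⟩
  choose D hD using hex
  set rd : G → M2 A := fun g => part (sh.par g) (R.rho g) with hrd
  have hrho : ∀ g, R.rho g = rd g + ε • liftM A (D g) := fun g => by
    rw [← hD g, hrd, part_add_part]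
  have hrdr : ∀ g, rm (rd g) = sh.r g := fun g => by
    have h : rm (R.rho g) = sh.r g := R.res_rho g
    rwa [hrho g, map_add, hrm, mapMatrix_smul_eq, hεr, zero_smul, add_zero] at h
  have hrdpar : ∀ g, IsPar (sh.par g) (rd g) := fun g => isPar_part _ _
  have hDpar : ∀ g, IsPar (!sh.par g) (D g) := fun g => by
    have h0 : part (sh.par g) (ε • liftM A (D g)) = 0 := by
      have := (isPar_part (!sh.par g) (R.rho g)).part_eq.2
      rwa [Bool.not_not, hD g] at this
    rw [part_smul, liftM, part_map] at h0
    have h1 : part (sh.par g) (D g) = 0 :=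
      hinj' _ _ (h0.trans (by rw [map_zero, smul_zero]))
    apply isPar_of_part_not_eq_zero
    rwa [Bool.not_not]
  have hmulD : ∀ g h, D (g * h) = sh.r g * D h + D g * sh.r h := fun g h => by
    have e1 : R.rho (g * h) = rd g * rd h + ε • liftM A (sh.r g * D h + D g * sh.r h) := by
      have : ε • (rd g * liftM A (D h) + liftM A (D g) * rd h) =
          ε • liftM A (sh.r g * D h + D g * sh.r h) := heq _ _ (by
        rw [map_add, map_mul, map_mul, hrdr, hrdr, hrm, mapMatrix_liftM, mapMatrix_liftM,
          mapMatrix_liftM])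
      rw [← this, map_mul, hrho g, hrho h]
      simp only [add_mul, mul_add, Matrix.smul_mul, Matrix.mul_smul, smul_smul, hεε, zero_smul,
        smul_add, add_zero]
      abel
    have hp : sh.par (g * h) = (sh.par g == sh.par h) := sh.par_mul g h
    have hq : (sh.par g == !sh.par h) = !sh.par (g * h) := by
      rw [hp]; cases sh.par g <;> cases sh.par h <;> rfl
    have hq' : ((!sh.par g) == sh.par h) = !sh.par (g * h) := by
      rw [hp]; cases sh.par g <;> cases sh.par h <;> rfl
    have k1 : IsPar (sh.par (g * h)) (rd g * rd h) := hp ▸ (hrdpar g).mul (hrdpar h)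
    have k2 : IsPar (!sh.par (g * h)) (sh.r g * D h + D g * sh.r h) :=
      (hq ▸ (sh.isPar_r g).mul (hDpar h)).add (hq' ▸ (hDpar g).mul (sh.isPar_r h))
    exact hinj' _ _ ((hrdpar (g * h)).eq_of_add_eq k1
      (((hDpar (g * h)).map _).smul ε) ((k2.map _).smul ε) ((hrho (g * h)).symm.trans e1)).2
  have hDeq : ∀ g h, R.rho g = R.rho h → D g = D h := fun g h e => by
    have hr : sh.r g = sh.r h := by rw [← R.res_rho g, ← R.res_rho h, e]
    have hp : sh.par g = sh.par h := by simp [Shape.par, hr]
    exact hinj' _ _ (by rw [← hD g, ← hD h, e, hp])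
  set v : G → M2 (ZMod 2) := fun g => D g * sh.r g⁻¹ with hvdef
  have hvD : ∀ g, D g = v g * sh.r g := fun g => by
    rw [hvdef, mul_assoc, sh.r_inv_mul_r, mul_one]
  have hv1 : ∀ g, sh.r g = 1 → v g = D g := fun g hg => by rw [hvD g, hg, mul_one]
  have hvV : ∀ g, IsV (v g) := fun g => by
    have h := (hDpar g).mul (sh.isPar_r g⁻¹)
    rw [sh.par_inv] at h
    cases hb : sh.par g <;> rw [hb] at h <;> exact h
  have hzero : ∀ g, R.rho g = 1 → v g = 0 := fun g hg => by
    have h1 : D 1 = 0 := by
      have := hmulD 1 1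
      rwa [mul_one, map_one, one_mul, mul_one, CharTwo.add_self_eq_zero] at this
    rw [hvdef]
    simp only
    rw [hDeq g 1 (by rw [hg, map_one]), h1, zero_mul]
  have htr : ∀ g, IsV (sh.r g) → (R.rho g).trace = 0 → v g = 0 ∨ v g = sh.r g :=
    fun g hg h => by
      have hd : IsV (rd g) := by
        have := hrdpar g
        rwa [sh.par_eq_false hg] at this
      rw [hrho g, Matrix.trace_add, hd.trace_eq_zero, zero_add, Matrix.trace_smul,
        smul_eq_mul] at h
      have h' := hscal _ h
      have e : (rm (liftM A (D g))).trace = 0 := by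
        rw [Matrix.trace_fin_two, map_add] at h'
        simpa [hrm, Matrix.trace_fin_two] using h'
      rw [hrm, mapMatrix_liftM, hvD g] at e
      exact (hvV g).line_of_trace hg (sh.r_ne_zero g) e
  have hSigma : ∀ i, v (sh.sigma i) = 0 ∨ v (sh.sigma i) = sh.r (sh.sigma i) := fun i =>
    htr _ (sh.isV_sigma i) (R.trace_sigma i)
  have hdec : ∀ i, ∀ g ∈ sh.decompU i, v g = 0 ∨ v g = sh.r (sh.sigma i) := fun i g hg => by
    have hu := sh.isV_sigma i
    have hu0 := sh.r_ne_zero (sh.sigma i)
    have huu := hu.sq_eq_one hu0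
    have e : D (g * sh.sigma i) = D (sh.sigma i * g) :=
      hDeq _ _ (by rw [map_mul, map_mul, R.comm_decompU i g hg])
    rw [hmulD, hmulD] at e
    have hs := hSigma i
    generalize hue : sh.r (sh.sigma i) = u at *
    rcases sh.r_decompU i g hg with hr | hr
    · rw [hr, hvD g, hr, one_mul, mul_one, mul_one, add_comm (u * v g)] at e
      exact (hvV g).line_of_commute hu hu0 (add_left_cancel e)
    · rw [hue] at hr
      rw [hvD g, hvD (sh.sigma i), hr, hue, mul_assoc (v g), mul_assoc (v (sh.sigma i)), huu,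
        mul_one, mul_one] at e
      have hw : u * (v g + v (sh.sigma i)) * u = v g + v (sh.sigma i) := by
        rw [mul_add, add_mul]
        simp only [mul_assoc] at e ⊢
        generalize u * (v (sh.sigma i) * u) = a at e ⊢
        generalize u * (v g * u) = b at e ⊢
        have h2 : ∀ X : M2 (ZMod 2), X + X = 0 := CharTwo.add_self_eq_zero
        calc b + a = (b + v (sh.sigma i)) + (a + v (sh.sigma i)) := by
              rw [add_add_add_comm, h2, add_zero]
          _ = (a + v g) + (a + v (sh.sigma i)) := by rw [e]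
          _ = v g + v (sh.sigma i) := by rw [add_add_add_comm, h2, zero_add]
      have hc : (v g + v (sh.sigma i)) * u = u * (v g + v (sh.sigma i)) := by
        conv_lhs => rw [← hw]
        rw [mul_assoc, huu, mul_one]
      rcases ((hvV g).add (hvV _)).line_of_commute hu hu0 hc with h | h <;>
        rcases hs with h' | h' <;> rw [h'] at h
      · left; simpa using h
      · right; exact CharTwo.add_eq_zero.1 h
      · right; simpa using h
      · left; simpa using h
  have hin : ∀ j, ∀ g ∈ sh.inertia j, (v g = 0 ∨ v g = sh.r (sh.frob j)) ∧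
      (v g = 0 → R.rho g = 1) := fun j g hg => by
    obtain ⟨W, hW⟩ := hI j g hg
    have hr := sh.r_inertia j g hg
    have hgW : R.rho g = 1 + ε • W := by rw [← hW, add_sub_cancel]
    have hp : sh.par g = true := sh.par_eq_true (hr ▸ isC_one)
    have h1 : IsPar true (1 : M2 A) := isC_one
    have hDg : D g = vPart (rm W) := by
      have h2 := hD g
      rw [hp, hgW, part_add, h1.part_eq.2, zero_add, part_smul] at h2
      have h3 := hinj _ _ h2
      rw [hrm, mapMatrix_liftM, ← part_map] at h3
      exact h3.symm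
    have hW0 : (rm W).trace = 0 := by
      have hd := R.det_rho g
      rw [hgW, Matrix.det_fin_two] at hd
      simp only [Matrix.add_apply, Matrix.smul_apply, smul_eq_mul, Matrix.one_apply_eq,
        Matrix.one_apply_ne (show (0 : Fin 2) ≠ 1 by decide),
        Matrix.one_apply_ne (show (1 : Fin 2) ≠ 0 by decide), zero_add] at hd
      have : ε * (W 0 0 + W 1 1) = 0 := by
        linear_combination hd - (W 0 0 * W 1 1 - W 0 1 * W 1 0) * hεε
      have := hscal _ this
      simpa [hrm, Matrix.trace_fin_two] using this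
    have hrel : rm W * (sh.r (sh.frob j) + 1) = 0 := by
      have h2 := R.inertia_rel j g hg
      rw [hW, Matrix.smul_mul, ← smul_zero ε] at h2
      have h3 := hinj _ _ h2
      have h4 : rm ((R.lam j : A) • (1 : M2 A)) = 1 := by
        rw [hrm, mapMatrix_smul_eq, R.res_unit, one_smul, map_one]
      rw [map_mul, map_sub, h4, map_zero] at h3
      rw [show rm (R.rho (sh.frob j)) = sh.r (sh.frob j) from R.res_rho _,
        CharTwo.sub_eq_add] at h3
      exact h3
    obtain ⟨h5, h6⟩ := (sh.isV_frob j).line_of_inertia (sh.r_ne_zero _) hW0 hrel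
    rw [← hDg, ← hv1 g hr] at h5 h6
    refine ⟨h5, fun h => ?_⟩
    rw [hgW, heq W 0 (by rw [h6 h, map_zero]), smul_zero, add_zero]
  have hS : sh.IsSelmer v :=
    { isV := hvV
      cocycle := fun g h => by
        simp only [hvdef]
        rw [hmulD, mul_inv_rev, map_mul]
        simp only [add_mul, mul_assoc]
        rw [← mul_assoc (sh.r h), sh.r_mul_r_inv, one_mul]
      zero_Z := fun g hg => hzero g (R.triv_Z g hg)
      zero_inertiaU := fun i g hg h => hzero g (R.triv_inertiaU i g hg h)
      line_decompU := hdec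
      line_inertia := fun j g hg => (hin j g hg).1
      line_frob := fun j hj => htr _ (sh.isV_frob j) (by
        rw [R.trace_frob j, inv_eq_of_mul_eq_one_right (R.lam_sq j hj),
          CharTwo.add_self_eq_zero]) }
  obtain ⟨Y, -, hY⟩ := hsel v hS
  set Y' := liftM A Y
  have hP : (1 + ε • Y') * (1 + ε • Y') = (1 : M2 A) := by
    simp only [add_mul, mul_add, one_mul, mul_one, Matrix.smul_mul, Matrix.mul_smul, smul_smul,
      hεε, zero_smul, add_zero, add_assoc, CharTwo.add_self_eq_zero]
  have hconj : ∀ g, (1 + ε • Y') * R.rho g * (1 + ε • Y') = rd g := fun g => by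
    have h1 : D g = sh.r g * Y + Y * sh.r g := by
      rw [hvD g, hY g, add_mul, mul_assoc, sh.r_inv_mul_r, mul_one]
    have h2 : ε • liftM A (D g) = ε • (rd g * Y' + Y' * rd g) := heq _ _ (by
      rw [map_add, map_mul, map_mul, hrdr, hrm, mapMatrix_liftM, mapMatrix_liftM, h1])
    rw [hrho g, h2]
    simp only [add_mul, mul_add, one_mul, mul_one, Matrix.smul_mul, Matrix.mul_smul, smul_smul,
      smul_add, hεε, zero_smul, add_zero]
    have h3 : ∀ X : M2 A, X + X = 0 := CharTwo.add_self_eq_zero
    grind
  refine ⟨⟨1 + ε • Y', 1 + ε • Y', hP, hP⟩, ?_, ?_, ?_, ?_⟩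
  · change rm (1 + ε • Y') = 1
    rw [map_add, map_one, hrm, mapMatrix_smul_eq, hεr, zero_smul, add_zero]
  · intro g hg
    change IsC ((1 + ε • Y') * R.rho g * (1 + ε • Y'))
    have := hrdpar g
    rw [sh.par_eq_true hg, ← hconj g] at this
    exact this
  · intro g hg
    change IsV ((1 + ε • Y') * R.rho g * (1 + ε • Y'))
    have := hrdpar g
    rw [sh.par_eq_false hg, ← hconj g] at this
    exact this
  · intro j g hg
    change (1 + ε • Y') * R.rho g * (1 + ε • Y') = 1
    have hv0 : v g = 0 := by
      rw [hY g, sh.r_inertia j g hg, one_mul]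
      rw [show sh.r g⁻¹ = 1 by
        have := sh.r_mul_r_inv g; rwa [sh.r_inertia j g hg, one_mul] at this]
      rw [mul_one, CharTwo.add_self_eq_zero]
    rw [(hin j g hg).2 hv0, mul_one, hP]

end Fermat.Agent.TwoAdic.Dihedral
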